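import Fermat.Agent.CFT.Coh.Pairing
import Fermat.Agent.CFT.Coh.H2

/-!
# Restriction and transfer

Subgroups of finite index: averaging arguments, restriction of class formations, and the
compatibility of the Tate pairing with traces from a subgroup (`pair_trEquiv`).
-/

set_option autoImplicit false

noncomputable section

namespace Fermat.Agent.CFT

open groupCohomology

/-! ### Averaging over a subgroup of finite index -/

section Average

variable {G A : Type*} [Group G] [Fintype G] [AddCommGroup A] [DistribMulAction G A]
  (H : Subgroup G)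

/-- The coinduced module with the diagonal action. -/
def Coind (G A : Type*) : Type _ := G → A

instance : AddCommGroup (Coind G A) := inferInstanceAs (AddCommGroup (G → A))

instance : DistribMulAction G (Coind G A) where
  smul g f := fun x => g • f (g⁻¹ * x)
  one_smul f := funext fun x => show (1 : G) • f (1⁻¹ * x) = f x by simp
  mul_smul a b f := funext fun x => by
    show (a * b) • f ((a * b)⁻¹ * x) = a • b • f (b⁻¹ * (a⁻¹ * x))
    simp [mul_smul, mul_assoc]
  smul_zero g := funext fun x => smul_zero g
  smul_add g f f' := funext fun x => smul_add g _ _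

/-- A `1`-cocycle trivial on a subgroup is killed by its index. -/
theorem index_nsmul_isCoboundary₁ (c : G → A) (hc : IsCocycle₁ c)
    (hH : IsCoboundary₁ fun h : H => c h) : IsCoboundary₁ (H.index • c) := by
  classical
  let : Fintype (G ⧸ H) := Fintype.ofFinite _
  obtain ⟨y, hy⟩ := hH
  let c' : G → A := fun g => c g - (g • y - y)
  have hc' : IsCocycle₁ c' := fun a b => by
    simp only [c', hc a b, mul_smul, smul_sub]
    abel
  have hk : ∀ h : H, c' h = 0 := fun h => by
    have e : (h : G) • y - y = c h := hy h
    simp only [c', e, sub_self]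
  have hout : ∀ g : G, c' (g : G ⧸ H).out = c' g := fun g => by
    obtain ⟨h, hh⟩ := QuotientGroup.mk_out_eq_mul H g
    rw [hh, hc', hk, smul_zero, zero_add]
  refine ⟨H.index • y - ∑ q : G ⧸ H, c' q.out, fun g => ?_⟩
  have e : g • ∑ q : G ⧸ H, c' q.out = (∑ q : G ⧸ H, c' q.out) - H.index • c' g := by
    calc g • ∑ q : G ⧸ H, c' q.out = ∑ q : G ⧸ H, (c' ((g * q.out : G) : G ⧸ H).out - c' g) := by
          rw [Finset.smul_sum]
          refine Finset.sum_congr rfl fun q _ => ?_
          rw [hout, hc']
          abel
      _ = _ := by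
          rw [Finset.sum_sub_distrib, Finset.sum_const, Finset.card_univ,
            ← Nat.card_eq_fintype_card]
          congr 1
          refine Fintype.sum_equiv (MulAction.toPerm g) _ _ fun q => ?_
          rw [MulAction.toPerm_apply]
          conv_rhs => rw [← QuotientGroup.out_eq' q]
          rfl
  rw [smul_sub, e, smul_comm g H.index y]
  simp only [c', Pi.smul_apply, smul_sub]
  abel

namespace Coind

omit [Fintype G] in
@[simp] theorem smul_apply (g : G) (f : Coind G A) (x : G) : (g • f) x = g • f (g⁻¹ * x) := rfl

omit [Group G] [Fintype G] [DistribMulAction G A] in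
@[simp] theorem sum_apply {ι : Type*} (s : Finset ι) (f : ι → Coind G A) (x : G) :
    (∑ i ∈ s, f i) x = ∑ i ∈ s, f i x :=
  map_sum (AddMonoidHom.mk' (fun f : Coind G A => f x) fun _ _ => rfl) f s

/-- The constants. -/
def const : A →+ Coind G A := AddMonoidHom.mk' (fun a _ => a) fun _ _ => rfl

omit [Fintype G] in
theorem smul_const (g : G) (a : A) : g • const (G := G) a = const (g • a) := rfl

/-- The coinduced module is induced, hence cohomologically trivial. -/
theorem isInduced : IsInduced G (Coind G A) := by
  classical
  let T : Coind G A →+ Coind G A := AddMonoidHom.mk'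
    (fun f x => if x = 1 then f 1 else 0) fun f f' => funext fun x => by
      show (if x = 1 then (f + f') 1 else 0) =
        (if x = 1 then f 1 else 0) + (if x = 1 then f' 1 else 0)
      split_ifs
      · rfl
      · exact (add_zero 0).symm
  refine ⟨T, fun f => funext fun x => ?_⟩
  rw [sum_apply, Finset.sum_eq_single x]
  · rw [smul_apply, inv_mul_cancel, show T (x⁻¹ • f) 1 = (x⁻¹ • f) 1 from if_pos rfl, smul_apply,
      inv_inv, mul_one, smul_inv_smul]
  · intro g _ hne
    rw [smul_apply, show T (g⁻¹ • f) (g⁻¹ * x) = 0 from
      if_neg fun e => hne (inv_mul_eq_one.mp e), smul_zero]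
  · simp

end Coind

open Coind in
/-- A `2`-cocycle trivial on a subgroup is killed by its index. -/
theorem index_nsmul_isCoboundary₂ (c : G × G → A) (hc : IsCocycle₂ c)
    (hH : IsCoboundary₂ fun x : H × H => c ((x.1 : G), (x.2 : G))) :
    IsCoboundary₂ (H.index • c) := by
  classical
  let : Fintype (G ⧸ H) := Fintype.ofFinite _
  let : Fintype H := Fintype.ofFinite _
  -- `c` is the coboundary of `B` in the coinduced module; correct `B` to be constant on `H`.
  obtain ⟨B, hB⟩ := (Coind.isInduced (G := G) (A := A)).h2Zero
    (fun gh => const (c gh)) fun a b d => by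
      show const _ + const _ = a • const _ + const _
      rw [Coind.smul_const, ← map_add, ← map_add, hc a b d]
  obtain ⟨y, hy⟩ := hH
  obtain ⟨z, hz⟩ := ((Coind.isInduced (G := G) (A := A)).subgroup H).h1Zero
    (fun h : H => B h - const (y h)) fun a b => by
      have e1 : (a : G) • B b - B ((a : G) * b) + B a = const (c ((a : G), (b : G))) := hB a b
      have e2 : (a : G) • y b - y (a * b) + y a = c ((a : G), (b : G)) := hy a b
      show B ((a * b : H) : G) - const (y (a * b)) =
        (a : G) • (B b - const (y b)) + (B a - const (y a))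
      rw [← e2, map_add, map_sub, ← Coind.smul_const] at e1
      rw [Subgroup.coe_mul, smul_sub, ← sub_eq_zero]
      rw [← sub_eq_zero] at e1
      rw [← neg_eq_zero, ← e1]
      abel
  let B' : G → Coind G A := fun g => B g - (g • z - z)
  have hB' : ∀ a b, a • B' b - B' (a * b) + B' a = const (c (a, b)) := fun a b => by
    have e : a • B b - B (a * b) + B a = const (c (a, b)) := hB a b
    rw [← e]
    simp only [B', smul_sub, mul_smul]
    abel
  have hk : ∀ h : H, B' h = const (y h) := fun h => by
    have e : (h : G) • z - z = B h - const (y h) := hz h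
    simp only [B', e, sub_sub_cancel]
  -- Then `B'` is constant, up to `B' g`, along cosets.
  have hout : ∀ g : G, ∃ a, B' (g : G ⧸ H).out = B' g + const a := fun g => by
    obtain ⟨h, hh⟩ := QuotientGroup.mk_out_eq_mul H g
    refine ⟨g • y h - c (g, h), ?_⟩
    have e := hB' g h
    rw [hk, Coind.smul_const] at e
    rw [hh, map_sub, ← sub_eq_zero]
    rw [← sub_eq_zero] at e
    rw [← neg_eq_zero, ← e]
    abel
  choose a ha using hout
  -- Summing over representatives shows that `H.index • B'` is constant up to a coboundary.
  set Z := ∑ q : G ⧸ H, B' q.out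
  let b : G → A := fun g => ∑ q : G ⧸ H, (c (g, q.out) - a (g * q.out))
  have key : ∀ g, H.index • B' g + (g • Z - Z) = const (b g) := by
    intro g
    have e : g • Z = ∑ q : G ⧸ H, (const (c (g, q.out) - a (g * q.out)) +
        B' ((g * q.out : G) : G ⧸ H).out - B' g) := by
      rw [Finset.smul_sum]
      refine Finset.sum_congr rfl fun q _ => ?_
      rw [ha, map_sub, ← hB' g q.out]
      abel
    have e2 : ∑ q : G ⧸ H, B' ((g * q.out : G) : G ⧸ H).out = Z := by
      refine Fintype.sum_equiv (MulAction.toPerm g) _ _ fun q => ?_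
      rw [MulAction.toPerm_apply]
      conv_rhs => rw [← QuotientGroup.out_eq' q]
      rfl
    rw [e, Finset.sum_sub_distrib, Finset.sum_add_distrib, Finset.sum_const, Finset.card_univ,
      ← Nat.card_eq_fintype_card, e2, ← map_sum]
    show H.index • B' g + (const (b g) + Z - H.index • B' g - Z) = _
    abel
  refine ⟨b, fun g h => ?_⟩
  show g • b h - b (g * h) + b g = (H.index • c) (g, h)
  have e : const (G := G) (g • b h - b (g * h) + b g) = const (H.index • c (g, h)) := by
    rw [map_add, map_sub, ← Coind.smul_const, ← key, ← key, ← key, map_nsmul, ← hB' g h]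
    simp only [B', smul_add, smul_sub, smul_comm g H.index, mul_smul]
    abel
  exact congr_fun e 1

end Average

/-! ### Restriction and traces -/

section Subgroup

variable {G C P : Type*} [Group G] [Fintype G] [AddCommGroup C] [DistribMulAction G C]
  [AddCommGroup P] [DistribMulAction G P] {S : AddSubgroup P} (hS : IsStable G S)
  {p : ℕ} {u : NormCocycle G C} (H : Subgroup G)

omit [Fintype G] in
theorem restrict_mem_cocycleMod (a : cocycleMod (G := G) (S := S)) :
    (fun h : H => (a : G → P) h) ∈ cocycleMod (G := H) (S := S) := fun g h => a.2 (g : G) (h : G)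

/-- Restriction of cocycles to a subgroup. -/
def resMod : cocycleMod (G := G) (S := S) →+ cocycleMod (G := H) (S := S) :=
  AddMonoidHom.mk' (fun a => ⟨_, restrict_mem_cocycleMod H a⟩) fun _ _ => rfl

omit [Fintype G] in
@[simp]
theorem resMod_apply (a : cocycleMod (G := G) (S := S)) (h : H) :
    (resMod H a : H → P) h = (a : G → P) h := rfl

/-- The restriction of a normalised cocycle. -/
def NormCocycle.restrict (u : NormCocycle G C) : NormCocycle H C where
  toFun gh := u.toFun ((gh.1 : G), (gh.2 : G))
  isCocycle a b d := u.isCocycle (a : G) (b : G) (d : G)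
  one_left g := u.one_left (g : G)

omit [Fintype G] in
/-- A class formation restricts to every subgroup. -/
theorem IsClassFormation.restrict (hu : IsClassFormation p u) :
    IsClassFormation p (u.restrict H) := by
  have e : ∀ K : Subgroup H, IsPGroup p K → IsPGroup p (K.map H.subtype) := fun K hK => hK.map _
  refine ⟨fun K hK => ?_, fun K hK c hc => ?_, fun K hK k hk => ?_⟩
  · exact (hu.h1 _ (e K hK)).of_equiv (K.equivMapOfInjective H.subtype H.subtype_injective)
      fun _ _ => rfl
  · set ε := K.equivMapOfInjective H.subtype H.subtype_injective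
    obtain ⟨k, x, hx⟩ := hu.generates _ (e K hK) (fun gh => c (ε.symm gh.1, ε.symm gh.2))
      fun a b d => by
        show c (ε.symm (a * b), _) + _ = _ + c (_, ε.symm (b * d))
        rw [map_mul, map_mul, hc]
        conv_rhs => rw [← ε.apply_symm_apply a]
        simp only [ε.symm_apply_apply]
        rfl
    refine ⟨k, fun h => x (ε h), fun a b => ?_⟩
    have := hx (ε a) (ε b)
    simp only [ε.symm_apply_apply] at this
    show (a : G) • x (ε b) - x (ε (a * b)) + x (ε a) = _
    rw [map_mul]
    exact this
  · set ε := K.equivMapOfInjective H.subtype H.subtype_injective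
    obtain ⟨x, hx⟩ := hk
    have := hu.order _ (e K hK) k ⟨fun h => x (ε.symm h), fun a b => by
      have := hx (ε.symm a) (ε.symm b)
      rw [← map_mul] at this
      show (a : G) • x (ε.symm b) - _ + _ = _
      have ha : ((ε.symm a : H) : G) = (a : G) := congr_arg Subtype.val (ε.apply_symm_apply a)
      rw [← ha]
      refine this.trans ?_
      show k • u.toFun (((ε.symm a : H) : G), ((ε.symm b : H) : G)) = _
      rw [ha, show ((ε.symm b : H) : G) = (b : G) from congr_arg Subtype.val
        (ε.apply_symm_apply b)]⟩
    rwa [Nat.card_congr ε.toEquiv]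

/-- The trace from a subgroup. -/
def trHom {X : Type*} [AddCommGroup X] [DistribMulAction G X] [Fintype (G ⧸ H)] :
    (S →+ X) →+ (S →+ X) := ∑ q : G ⧸ H, conjHom hS q.out

omit [Fintype G] in
/-- The trace is the sum of the conjugates over the cosets. -/
theorem trHom_apply {X : Type*} [AddCommGroup X] [DistribMulAction G X] [Fintype (G ⧸ H)]
    (f : S →+ X) : trHom hS H f = ∑ q : G ⧸ H, conjOn hS q.out f := by
  simp [trHom]

omit [Fintype G] in
/-- The trace of a map equivariant for a subgroup is equivariant for the whole group. -/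
theorem isEquivariantOn_trHom {X : Type*} [AddCommGroup X] [DistribMulAction G X]
    [Fintype (G ⧸ H)] (f : S →+ X) (hf : IsEquivariantOn (IsStable.restrict hS H) f) :
    IsEquivariantOn hS (trHom hS H f) := by
  have hconj : ∀ g : G, conjOn hS g (trHom hS H f) = trHom hS H f := fun g => by
    rw [← conjHom_apply, trHom_apply, map_sum]
    simp only [conjHom_apply, conjOn_conjOn]
    refine Fintype.sum_equiv (MulAction.toPerm g) _ _ fun q => ?_
    obtain ⟨h, hh⟩ := QuotientGroup.mk_out_eq_mul H (g * q.out)
    rw [MulAction.toPerm_apply,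
      show (g • q : G ⧸ H) = ((g * q.out : G) : G ⧸ H) by
        conv_lhs => rw [← QuotientGroup.out_eq' q]
        rfl,
      hh, ← conjOn_conjOn hS (g * q.out) (h : G), ← conjOn_subgroup hS H h f,
      IsEquivariantOn.conjOn_eq (IsStable.restrict hS H) hf h]
  intro g s
  conv_lhs => rw [← hconj g]
  rw [conjOn_apply, smulS_smulS, inv_mul_cancel]
  exact congr_arg _ (congr_arg _ (Subtype.ext (one_smul G (s : P))))

/-! ### Morphisms of splitting modules -/

variable {Cv : Type*} [AddCommGroup Cv] [DistribMulAction H Cv] [Fintype H]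

/-- A morphism of splitting modules over the inclusion of a subgroup. -/
structure SplitHom (uv : NormCocycle H Cv) (u : NormCocycle G C) where
  /-- The map on coefficients. -/
  j : Cv →+ C
  /-- The multiple. -/
  s : ℤ
  /-- The correcting cochain. -/
  b : H → C
  map_smul : ∀ (h : H) (c : Cv), j (h • c) = (h : G) • j c
  spec : ∀ g h : H, j (uv.toFun (g, h)) =
    s • u.toFun ((g : G), (h : G)) + ((g : G) • b h - b (g * h) + b g)

/-- The trivial morphism from the restriction. -/
def SplitHom.refl (u : NormCocycle G C) : SplitHom H (u.restrict H) u where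
  j := AddMonoidHom.id C
  s := 1
  b := 0
  map_smul _ _ := rfl
  spec g h := by simp [NormCocycle.restrict]

variable {H}
variable {uv : NormCocycle H Cv}

/-- A sum over the group of a function extended by zero off a subgroup is the sum over the
subgroup. -/
theorem sum_subgroup_dite {β : Type*} [AddCommMonoid β] [DecidablePred (· ∈ H)] (f : H → β) :
    ∑ g : G, (if hg : g ∈ H then f ⟨g, hg⟩ else 0) = ∑ h : H, f h := by
  rw [← Finset.sum_subset
    (Finset.subset_univ ((Finset.univ : Finset H).map ⟨Subtype.val, Subtype.val_injective⟩))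
    (fun g _ hg => dif_neg fun h => hg (Finset.mem_map.mpr ⟨⟨g, h⟩, Finset.mem_univ _, rfl⟩)),
    Finset.sum_map]
  exact Finset.sum_congr rfl fun h _ => dif_pos h.2

/-- The induced map of splitting modules. -/
def SplitHom.map (σ : SplitHom H uv u) : Split uv →+ Split u := by
  classical
  exact AddMonoidHom.mk'
    (fun x => Split.mk (σ.j (Split.fstHom x) + ∑ h, (Split.sndHom x).1 h • σ.b h)
      ⟨fun g => if hg : g ∈ H then σ.s * (Split.sndHom x).1 ⟨g, hg⟩ else 0, by
        show ∑ g, _ = 0
        rw [sum_subgroup_dite (fun h : H => σ.s * (Split.sndHom x).1 h), ← Finset.mul_sum,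
          show ∑ h : H, (Split.sndHom x).1 h = 0 from (Split.sndHom x).2, mul_zero]⟩)
    fun x y => by
      refine Split.ext ?_ (Subtype.ext (funext fun g => ?_))
      · simp only [Split.fstHom_mk, map_add, AddSubgroup.coe_add, Pi.add_apply, add_smul,
          Finset.sum_add_distrib]
        abel
      · simp only [Split.sndHom_mk, map_add, AddSubgroup.coe_add, Pi.add_apply]
        split_ifs <;> ring

/-- The induced map of splitting modules restricts to the coefficient map. -/
theorem SplitHom.map_inl (σ : SplitHom H uv u) (c : Cv) :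
    σ.map (Split.inl c) = Split.inl (σ.j c) := by
  refine Split.ext ?_ (Subtype.ext (funext fun g => ?_))
  · simp [SplitHom.map]
  · simp [SplitHom.map]

/-- The induced map multiplies augmentation coordinates by `σ.s` on `H` and kills them off `H`. -/
theorem SplitHom.coord_map (σ : SplitHom H uv u) (x : Split uv) (g : G) :
    Split.coord g (σ.map x) =
      (by classical exact if hg : g ∈ H then σ.s * Split.coord ⟨g, hg⟩ x else 0) := by
  classical
  simp only [Split.coord_def, SplitHom.map, AddMonoidHom.mk'_apply, Split.sndHom_mk]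

open Split in
theorem SplitHom.map_equivariant (σ : SplitHom H uv u) (g : H) (x : Split uv) :
    σ.map (g • x) = (g : G) • σ.map x := by
  classical
  refine Split.ext ?_ (Subtype.ext (funext fun y => ?_))
  · have e1 : ∑ h : H, (sndHom x).1 h • σ.b g = 0 := by
      rw [← Finset.sum_smul, show ∑ h : H, (sndHom x).1 h = 0 from (sndHom x).2, zero_smul]
    have e2 : ∑ h : H, (sndHom x).1 (g⁻¹ * h) • σ.b h = ∑ h : H, (sndHom x).1 h • σ.b (g * h) :=
      (Fintype.sum_equiv (Equiv.mulLeft g) _ _ fun h => by simp).symm
    rw [Split.fstHom_smul]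
    simp only [SplitHom.map, AddMonoidHom.mk'_apply, fstHom_mk, sndHom_mk, Split.fstHom_smul,
      Split.sndHom_smul, coe_shift, map_add, map_sum, map_zsmul, σ.map_smul, σ.spec, smul_add,
      smul_sub, Finset.sum_add_distrib, Finset.sum_sub_distrib, Finset.smul_sum, e1, e2, dite_smul,
      zero_smul]
    rw [sum_subgroup_dite (fun h : H => (σ.s * (sndHom x).1 h) • u.toFun ((g : G), (h : G)))]
    simp only [mul_smul, smul_comm (g : G) (_ : ℤ), smul_comm σ.s (_ : ℤ)]
    abel
  · rw [Split.sndHom_smul]
    simp only [SplitHom.map, AddMonoidHom.mk'_apply, sndHom_mk, Split.sndHom_smul, coe_shift]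
    by_cases hy : y ∈ H
    · rw [dif_pos hy, dif_pos (H.mul_mem (H.inv_mem g.2) hy)]
      rfl
    · rw [dif_neg hy, dif_neg fun h => hy ((Subgroup.mul_mem_cancel_left H (H.inv_mem g.2)).mp h)]

/-! ### The pairing and traces -/

variable [hp : Fact p.Prime] [Module.Free ℤ P] [Module.Finite ℤ P]
  (hpS : ∀ x : P, p • x ∈ S) (hu : IsClassFormation p u) (hP : IsInduced G P)
  (huv : IsClassFormation p uv) (σ : SplitHom H uv u) [Fintype (G ⧸ H)]

/-- The trace of the image of a local homomorphism. -/
def trEquiv (f : equivHom (C := Cv) (IsStable.restrict hS H)) : equivHom (C := C) hS :=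
  ⟨trHom hS H (σ.j.comp f.1), isEquivariantOn_trHom hS H _ fun h s => by
    show σ.j (f.1 (smulS (IsStable.restrict hS H) h s)) = h • σ.j (f.1 s)
    rw [f.2 h s, σ.map_smul]
    rfl⟩

/-- Compatibility of the pairing with traces from a subgroup. -/
theorem pair_trEquiv (f : equivHom (C := Cv) (IsStable.restrict hS H))
    (a : cocycleMod (G := G) (S := S)) :
    pair hS hpS hu hP (trEquiv hS σ f) a =
      (σ.s : ZMod p) * pair (IsStable.restrict hS H) hpS huv (hP.subgroup H) f (resMod H a) := by
  classical
  set φ := normPre (IsStable.restrict hS H) hpS huv (hP.subgroup H) f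
  have hφ : normOn (IsStable.restrict hS H) φ = Split.inl.comp f.1 :=
    normOn_normPre (IsStable.restrict hS H) hpS huv (hP.subgroup H) f
  have hn : normOn hS (σ.map.comp φ) = Split.inl.comp (trEquiv hS σ f).1 := by
    have e : normOn (IsStable.restrict hS H) (σ.map.comp φ) = Split.inl.comp (σ.j.comp f.1) := by
      ext1 s
      have e := congr_arg σ.map (DFunLike.congr_fun hφ s)
      rw [normOn_apply, map_sum] at e
      simp only [σ.map_equivariant, AddMonoidHom.comp_apply, σ.map_inl] at e
      rw [normOn_apply]
      exact e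
    rw [normOn_eq_sum_left hS H, e]
    ext1 s
    simp only [trEquiv, trHom_apply, AddMonoidHom.finsetSum_apply, AddMonoidHom.comp_apply,
      map_sum, conjOn_apply, Split.smul_inl]
  rw [pair_eq hS hpS hu hP _ _ hn,
    pair_eq (IsStable.restrict hS H) hpS huv (hP.subgroup H) f φ hφ, lam_apply, lam_apply,
    Finset.mul_sum, ← sum_subgroup_dite]
  refine Finset.sum_congr rfl fun g _ => ?_
  rw [AddMonoidHom.comp_apply, σ.coord_map]
  split_ifs
  · push_cast; rfl
  · simp

end Subgroup

end Fermat.Agent.CFT
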