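import Fermat.Agent.CFT.Idele.Carry
import Fermat.Agent.CFT.Coh.Transfer

/-!
# A class of exact order from a cyclic character of a larger group

If `π : G → Q` has kernel meeting the kernel of `χ : G → ℤ/n` trivially and an invariant `x` is a
norm from `ker π`, the carry class of `(χ, x)` comes from `Q`; if it has order `n`, the class at
`Q` has order `n` on the Sylow `p`-subgroups, as soon as these have index prime to `n`.
-/

set_option autoImplicit false

noncomputable section

namespace Fermat.Agent.CFT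

open groupCohomology Idele

variable {G Q A B : Type*} [Group G] [Group Q] [AddCommGroup A] [DistribMulAction G A]
  [AddCommGroup B] [DistribMulAction Q B]

theorem isCocycle₂_congr_apply {c : G × G → A} (hc : IsCocycle₂ c) :
    IsCocycle₂ (c - dOne fun _ => c (1, 1)) := isCocycle₂_sub hc (isCocycle₂_dOne _)

/-- Normalisation of a cocycle. -/
def normalise (c : G × G → A) (hc : IsCocycle₂ c) : NormCocycle G A where
  toFun := c - dOne fun _ => c (1, 1)
  isCocycle := isCocycle₂_congr_apply hc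
  one_left g := by
    have e := hc 1 1 g
    simp only [one_mul, one_smul] at e
    simp only [Pi.sub_apply, dOne, one_smul]
    have := add_left_cancel e
    simp [this]

/-- The carry cocycle restricted to a subgroup on which the character is injective. -/
theorem isCoboundary₂_carryN_restrict {n : ℕ} [NeZero n] (χ : G →* Multiplicative (ZMod n))
    (N : Subgroup G) [Fintype N] {x : A}
    (hx : ∃ w, normSum N A w = x) :
    IsCoboundary₂ fun ab : N × N => carryN χ x ((ab.1 : G), (ab.2 : G)) := by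
  classical
  obtain ⟨w, rfl⟩ := hx
  let b : N → A := fun a => ∑ c ∈ Finset.univ.filter (fun c : N => chiVal χ (c : G) <
    chiVal χ (a : G)), (c : G) • w
  refine ⟨b, fun g h => ?_⟩
  show (g : N) • b h - b (g * h) + b g = _
  -- both sides are sums over the group, so compare coefficients
  have e1 : (g : N) • b h = ∑ c : N, (if chiVal χ ((g⁻¹ * c : N) : G) < chiVal χ (h : G) then
      (c : G) • w else 0) := by
    simp only [b, Finset.smul_sum, Finset.sum_filter]
    refine Fintype.sum_equiv (Equiv.mulLeft g) _ _ fun c => ?_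
    show _ = if chiVal χ ((g⁻¹ * (g * c) : N) : G) < _ then ((g * c : N) : G) • w else 0
    rw [inv_mul_cancel_left]
    split_ifs
    · rw [Subgroup.smul_def, smul_smul, Subgroup.coe_mul]
    · exact smul_zero _
  have e2 : ∀ a : N, b a = ∑ c : N, (if chiVal χ (c : G) < chiVal χ (a : G) then
      (c : G) • w else 0) := fun a => Finset.sum_filter _ _
  rw [e1, e2, e2, ← Finset.sum_sub_distrib, ← Finset.sum_add_distrib]
  show _ = ((chiVal χ (g : G) + chiVal χ (h : G)) / n) • normSum N A w
  rw [normSum, Finset.smul_sum]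
  refine Finset.sum_congr rfl fun c _ => ?_
  have hc : (c : G) = (g : G) * ((g⁻¹ * c : N) : G) := by simp
  have hgh : chiVal χ ((g * h : N) : G) = (chiVal χ (g : G) + chiVal χ (h : G)) % n :=
    chiVal_mul χ _ _
  have hcc : chiVal χ (c : G) = (chiVal χ (g : G) + chiVal χ ((g⁻¹ * c : N) : G)) % n := by
    conv_lhs => rw [hc]
    exact chiVal_mul χ _ _
  rw [hgh, hcc, show c • w = (c : G) • w from rfl]
  have ha := chiVal_lt χ (g : G)
  have hb := chiVal_lt χ (h : G)
  have hd := chiVal_lt χ ((g⁻¹ * c : N) : G)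
  generalize chiVal χ (g : G) = i at *
  generalize chiVal χ (h : G) = j at *
  generalize chiVal χ ((g⁻¹ * c : N) : G) = l at *
  have key : ∀ u v : ℕ, u < n → v < n → (u + v < n ∧ (u + v) % n = u + v ∧ (u + v) / n = 0) ∨
      (n ≤ u + v ∧ (u + v) % n = u + v - n ∧ (u + v) / n = 1) := fun u v hu hv => by
    rcases Nat.lt_or_ge (u + v) n with h1 | h1
    · exact Or.inl ⟨h1, Nat.mod_eq_of_lt h1, Nat.div_eq_of_lt h1⟩
    · exact Or.inr ⟨h1, by rw [Nat.mod_eq_sub_mod h1, Nat.mod_eq_of_lt (by omega)],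
        Nat.div_eq_of_lt_le (by omega) (by omega)⟩
  rcases key i j ha hb with ⟨p1, p2, p3⟩ | ⟨p1, p2, p3⟩ <;>
    rcases key i l ha hd with ⟨q1, q2, q3⟩ | ⟨q1, q2, q3⟩ <;>
    rw [p2, p3, q2] <;> split_ifs <;> first | omega | simp

/-- A fundamental class at `Q` from a carry class of `G`. -/
theorem exists_normCocycle_of_carry [Finite Q] {p : ℕ} [hp : Fact p.Prime]
    (π : G →* Q) (hπ : Function.Surjective π) (ι : B →+ A) (hι : Function.Injective ι)
    (hinv : ∀ (g : G) (x : B), g • ι x = ι (π g • x))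
    (hfix : ∀ a : A, (∀ n : π.ker, (n : G) • a = a) → ∃ x, ι x = a)
    {n : ℕ} [NeZero n] (hn : ∀ P : Sylow p Q, Nat.card (P : Subgroup Q) = n)
    (χ : G →* Multiplicative (ZMod n))
    [Fintype π.ker] (h1 : H1Zero π.ker A) {x : A} (hx : ∀ g : G, g • x = x)
    (hxN : ∃ w, normSum π.ker A w = x)
    (hord : ∀ z : ℤ, IsCoboundary₂ (carryN χ (z • x)) → (n : ℤ) ∣ z) :
    ∃ u : NormCocycle Q B, ∀ P : Sylow p Q, ∀ k : ℤ,
      IsCoboundary₂ (fun gh : ↥(P : Subgroup Q) × ↥(P : Subgroup Q) =>
        k • u.toFun ((gh.1 : Q), (gh.2 : Q))) → (Nat.card (P : Subgroup Q) : ℤ) ∣ k := by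
  obtain ⟨c₀, hc₀, hc⟩ := exists_descend₂ π hπ ι hι hinv hfix h1 (carryN χ x)
    (isCocycle₂_carryN hx) (isCoboundary₂_carryN_restrict χ π.ker hxN)
  let : Fintype Q := Fintype.ofFinite Q
  refine ⟨normalise c₀ hc₀, fun P k hk => ?_⟩
  rw [hn P]
  obtain ⟨y, hy⟩ := index_nsmul_isCoboundary₂ (P : Subgroup Q)
    (k • (normalise c₀ hc₀).toFun) (isCocycle₂_zsmul (normalise c₀ hc₀).isCocycle k) hk
  set m := (P : Subgroup Q).index
  have hmem : carryN χ (((m : ℤ) * k) • x) ∈ cobound₂ G A := by
    rw [← zsmul_carryN, show carryN χ x = (carryN χ x - fun gh => ι (c₀ (π gh.1, π gh.2))) +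
      ((fun gh => ι ((normalise c₀ hc₀).toFun (π gh.1, π gh.2))) +
        dOne fun _ => ι (c₀ (1, 1))) by
      funext gh
      simp only [Pi.add_apply, Pi.sub_apply, normalise, dOne, hinv, map_sub, map_add]
      abel, smul_add, smul_add]
    refine add_mem (zsmul_mem hc _) (add_mem ⟨fun g => ι (y (π g)), fun g h => ?_⟩
      (zsmul_mem (dOne_mem _) _))
    have e := congrArg ι (hy (π g) (π h))
    simp only [map_sub, map_add, ← hinv, ← map_mul, Pi.smul_apply, map_nsmul, map_zsmul] at e
    rw [Pi.smul_apply, e, mul_smul, natCast_zsmul]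
  have h2 := hord _ hmem
  have hcop : IsCoprime (n : ℤ) (m : ℤ) := by
    refine Int.isCoprime_iff_nat_coprime.mpr ?_
    obtain ⟨a, ha⟩ := IsPGroup.iff_card.mp P.isPGroup'
    rw [Int.natAbs_natCast, Int.natAbs_natCast, ← hn P, ha]
    exact Nat.Coprime.pow_left _ (hp.out.coprime_iff_not_dvd.mpr P.not_dvd_index)
  exact hcop.dvd_of_dvd_mul_left h2

end Fermat.Agent.CFT
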