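import Fermat.Agent.CFT.Coh.Pairing

/-!
# Norms at a Sylow subgroup

An equivariant map on a relation lattice into a module which is cohomologically trivial at a Sylow
subgroup is a norm (`exists_normOn_of_sylow`).
-/

set_option autoImplicit false

noncomputable section

namespace Fermat.Agent.CFT

variable {G P X : Type*} [Group G] [Fintype G] [AddCommGroup P] [DistribMulAction G P]
  [Module.Free ℤ P] [Module.Finite ℤ P] [AddCommGroup X] [DistribMulAction G X]
  {S : AddSubgroup P} {p : ℕ} [hp : Fact p.Prime]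

/-- An equivariant map on a stable subgroup containing `p P` of an induced lattice `P`, into a
module with trivial `H¹` and surjective norm at a Sylow `p`-subgroup, is a norm. -/
theorem exists_normOn_of_sylow (hS : IsStable G S) (Q : Sylow p G) [Fintype (Q : Subgroup G)]
    (h1 : H1Zero (Q : Subgroup G) X) (hN : NormSurj (Q : Subgroup G) X) (hP : IsInduced G P)
    (hpS : ∀ x : P, p • x ∈ S) (f : S →+ X) (hf : IsEquivariantOn hS f) :
    ∃ φ : S →+ X, normOn hS φ = f := by
  classical
  let : Fintype (G ⧸ (Q : Subgroup G)) := Fintype.ofFinite _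
  obtain ⟨φ₁, hφ₁⟩ := exists_eq_normOn (IsStable.restrict hS (Q : Subgroup G)) Q.isPGroup'
    h1 hN (hP.subgroup _) hpS f fun h s => hf h s
  have h1 : normOn hS φ₁ = Fintype.card (G ⧸ (Q : Subgroup G)) • f := by
    rw [normOn_eq_sum_left hS (Q : Subgroup G), hφ₁]
    simp [IsEquivariantOn.conjOn_eq hS hf]
  obtain ⟨T, hT⟩ := hP
  have h2 : normOn hS (((f.comp (mulP hpS)).comp T).comp S.subtype) = p • f := by
    rw [normOn_comp_of_equivariant hS hT _ fun g x => by
      simp only [AddMonoidHom.comp_apply, ← smulS_mulP hS, hf g (mulP hpS x)]]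
    ext1 s
    simp only [AddMonoidHom.comp_apply, AddSubgroup.coe_subtype, mulP_coe, map_nsmul,
      AddMonoidHom.smul_apply]
  have hcop : (Fintype.card (G ⧸ (Q : Subgroup G))).Coprime p := by
    rw [← Nat.card_eq_fintype_card]
    exact (hp.out.coprime_iff_not_dvd.mpr Q.not_dvd_index).symm
  obtain ⟨a, b, hab⟩ : IsCoprime (Fintype.card (G ⧸ (Q : Subgroup G)) : ℤ) (p : ℤ) :=
    Int.isCoprime_iff_nat_coprime.mpr (by simpa using hcop)
  refine ⟨a • φ₁ + b • (((f.comp (mulP hpS)).comp T).comp S.subtype), ?_⟩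
  rw [← normHom_apply, map_add, map_zsmul, map_zsmul, normHom_apply, normHom_apply, h1, h2,
    ← natCast_zsmul f, ← natCast_zsmul f, smul_smul, smul_smul, ← add_smul, hab, one_smul]

end Fermat.Agent.CFT
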