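import Fermat.Agent.CFT.Coh.Extend
import Fermat.Agent.CFT.Coh.Splitting

/-!
# The Tate pairing of a class formation

For a lattice presentation `S ⊆ P` of a module killed by `p`, equivariant homomorphisms `S → C`
modulo norms pair perfectly with `H¹` of the module.

The pairing is `pair`; its left kernel consists of norms (`exists_normOn_of_pair_eq_zero`) and it
reaches every functional killing coboundaries (`exists_pair_eq`).
-/

set_option autoImplicit false

noncomputable section

namespace Fermat.Agent.CFT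

/-! ### Conjugation and norms of homomorphisms -/

section Conj

variable {G P X : Type*} [Group G] [AddCommGroup P] [DistribMulAction G P] [AddCommGroup X]
  [DistribMulAction G X] {S : AddSubgroup P} (hS : IsStable G S)

include hS in
/-- A stable subgroup stays stable under a subgroup of the group. -/
theorem IsStable.restrict (H : Subgroup G) : IsStable H S :=
  fun h => hS (h : G)

/-- Conjugation, as a homomorphism. -/
def conjHom (g : G) : (S →+ X) →+ (S →+ X) :=
  AddMonoidHom.mk' (conjOn hS g) fun φ ψ => by ext s; simp [smul_add]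

@[simp]
theorem conjHom_apply (g : G) (φ : S →+ X) : conjHom hS g φ = conjOn hS g φ := rfl

theorem conjOn_conjOn (g h : G) (φ : S →+ X) :
    conjOn hS g (conjOn hS h φ) = conjOn hS (g * h) φ := by
  ext s
  simp only [conjOn_apply, smul_smul, smulS_smulS, mul_inv_rev]

theorem conjOn_subgroup (H : Subgroup G) (h : H) (φ : S →+ X) :
    conjOn (IsStable.restrict hS H) h φ = conjOn hS (h : G) φ := rfl

/-- Equivariant maps are fixed by conjugation. -/
theorem IsEquivariantOn.conjOn_eq {f : S →+ X} (hf : IsEquivariantOn hS f) (g : G) :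
    conjOn hS g f = f := by
  ext s
  rw [conjOn_apply, ← hf, smulS_smulS, mul_inv_cancel]
  exact congr_arg f (Subtype.ext (one_smul G (s : P)))

variable [Fintype G]

theorem normOn_eq_sum (φ : S →+ X) : normOn hS φ = ∑ g : G, conjOn hS g φ := rfl

/-- The norm, as a homomorphism. -/
def normHom : (S →+ X) →+ (S →+ X) := ∑ g : G, conjHom hS g

/-- `normHom` is `normOn`. -/
theorem normHom_apply (φ : S →+ X) : normHom hS φ = normOn hS φ := by
  simp [normHom, normOn_eq_sum]

theorem normOn_conjOn (g : G) (φ : S →+ X) : normOn hS (conjOn hS g φ) = normOn hS φ := by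
  simp only [normOn_eq_sum, conjOn_conjOn]
  exact Fintype.sum_equiv (Equiv.mulRight g) _ _ fun h => rfl

/-- A sum over the group split along the cosets of a subgroup. -/
theorem sum_coset (H : Subgroup G) [Fintype H] [Fintype (G ⧸ H)] {β : Type*} [AddCommMonoid β]
    (F : G → β) : ∑ g : G, F g = ∑ q : G ⧸ H, ∑ h : H, F (q.out * h) := by
  rw [← Fintype.sum_prod_type' (f := fun (q : G ⧸ H) (h : H) => F (q.out * h))]
  refine (Fintype.sum_bijective (fun x : (G ⧸ H) × H => x.1.out * (x.2 : G)) ⟨?_, ?_⟩ _ _
    fun x => rfl).symm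
  · intro x y hxy
    have hq : ∀ z : (G ⧸ H) × H, ((z.1.out * (z.2 : G) : G) : G ⧸ H) = z.1 := fun z => by
      rw [QuotientGroup.mk_mul_of_mem _ z.2.2, QuotientGroup.out_eq']
    have h1 : x.1 = y.1 := by rw [← hq x, ← hq y]; exact congr_arg _ hxy
    refine Prod.ext h1 (Subtype.ext ?_)
    simpa [h1] using hxy
  · intro g
    refine ⟨((g : G ⧸ H), ⟨(g : G ⧸ H).out⁻¹ * g, ?_⟩), by simp⟩
    exact QuotientGroup.eq.mp (QuotientGroup.out_eq' (g : G ⧸ H))

/-- The norm is the sum over coset representatives of conjugates of the norm from a subgroup. -/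
theorem normOn_eq_sum_left (H : Subgroup G) [Fintype H] [Fintype (G ⧸ H)] (φ : S →+ X) :
    normOn hS φ =
      ∑ q : G ⧸ H, conjOn hS q.out (normOn (IsStable.restrict hS H) φ) := by
  rw [normOn_eq_sum, sum_coset H]
  refine Finset.sum_congr rfl fun q _ => ?_
  rw [← conjHom_apply, normOn_eq_sum, map_sum]
  exact Finset.sum_congr rfl fun h _ => by
    rw [conjHom_apply, conjOn_subgroup hS H, conjOn_conjOn]

theorem normOn_eq_sum_right (H : Subgroup G) [Fintype H] [Fintype (G ⧸ H)] (φ : S →+ X) :
    normOn hS φ =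
      normOn (IsStable.restrict hS H) (∑ q : G ⧸ H, conjOn hS q.out⁻¹ φ) := by
  rw [← normHom_apply (IsStable.restrict hS H), map_sum]
  simp only [normHom_apply, normOn_eq_sum, conjOn_subgroup hS H, conjOn_conjOn]
  rw [← Equiv.sum_comp (Equiv.inv G), sum_coset H]
  refine Finset.sum_congr rfl fun q _ => ?_
  rw [← Equiv.sum_comp (Equiv.inv H)]
  simp

end Conj

/-- An induced module is induced for every subgroup. -/
theorem IsInduced.subgroup {G A : Type*} [Group G] [Fintype G] [AddCommGroup A]
    [DistribMulAction G A] (h : IsInduced G A) (H : Subgroup G) [Fintype H] : IsInduced H A := by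
  classical
  let : Fintype (G ⧸ H) := Fintype.ofFinite _
  obtain ⟨T, hT⟩ := h
  refine ⟨∑ q : G ⧸ H, (DistribSMul.toAddMonoidHom A q.out⁻¹).comp
    (T.comp (DistribSMul.toAddMonoidHom A q.out)), fun a => ?_⟩
  conv_rhs => rw [← hT a, ← Equiv.sum_comp (Equiv.inv G), sum_coset H]
  simp only [AddMonoidHom.finsetSum_apply, Finset.smul_sum]
  rw [Finset.sum_comm]
  refine Finset.sum_congr rfl fun q _ => ?_
  rw [← Equiv.sum_comp (Equiv.inv H)]
  simp [Subgroup.smul_def, smul_smul]

/-- On an induced lattice every equivariant map is the norm of its composite with the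
trivialisation. -/
theorem normOn_comp_of_equivariant {G P X : Type*} [Group G] [Fintype G] [AddCommGroup P]
    [DistribMulAction G P] [AddCommGroup X] [DistribMulAction G X] {S : AddSubgroup P}
    (hS : IsStable G S) {T : P →+ P} (hT : ∀ a, ∑ g : G, g • T (g⁻¹ • a) = a) (e : P →+ X)
    (he : ∀ (g : G) (x : P), e (g • x) = g • e x) :
    normOn hS ((e.comp T).comp S.subtype) = e.comp S.subtype := by
  ext s
  rw [normOn_apply]
  show ∑ g : G, g • e (T (g⁻¹ • (s : P))) = e s
  simp only [← he, ← map_sum, hT]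

/-! ### Multiplication by `p` into the relations -/

section Lattice

variable {P : Type*} [AddCommGroup P] {S : AddSubgroup P} {p : ℕ}

/-- Multiplication by `p`, into a subgroup containing `p P`. -/
def mulP (hpS : ∀ x : P, p • x ∈ S) : P →+ S :=
  AddMonoidHom.mk' (fun x => ⟨p • x, hpS x⟩) fun x y => Subtype.ext (smul_add p x y)

/-- The value of `mulP` is `p • x`. -/
@[simp]
theorem coe_mulP (hpS : ∀ x : P, p • x ∈ S) (x : P) : (mulP hpS x : P) = p • x := rfl

/-- On the subgroup `S` itself `mulP` is multiplication by `p`. -/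
theorem mulP_coe (hpS : ∀ x : P, p • x ∈ S) (s : S) : mulP hpS s = p • s := rfl

/-- Multiplication by `p` into the subgroup is equivariant. -/
theorem smulS_mulP {G : Type*} [Group G] [DistribMulAction G P] (hS : IsStable G S)
    (hpS : ∀ x : P, p • x ∈ S) (g : G) (x : P) : smulS hS g (mulP hpS x) = mulP hpS (g • x) :=
  Subtype.ext (smul_comm g p x)

/-- Functionals on `P / S` lift to functionals on `S` through multiplication by `p`. -/
theorem exists_lift_mulP [hp : Fact p.Prime] [Module.Free ℤ P] [Module.Finite ℤ P]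
    (hpS : ∀ x : P, p • x ∈ S) (χ : P →+ ZMod p) (hχ : ∀ x ∈ S, χ x = 0) :
    ∃ W : S →+ ℤ, ∀ x, (W (mulP hpS x) : ZMod p) = χ x := by
  classical
  have := free_subgroup S
  have : Module.Finite ℤ S :=
    Module.Finite.of_injective S.subtype.toIntLinearMap Subtype.val_injective
  let b := Module.Free.chooseBasis ℤ S
  let ι := Module.Free.ChooseBasisIndex ℤ S
  let red : S →+ (ι → ZMod p) :=
    AddMonoidHom.mk' (fun s i => ((b.repr s i : ℤ) : ZMod p)) fun s t => by
      funext i; simp
  -- `r` is multiplication by `p` followed by reduction in a basis of `S`; `χ` factors through it.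
  let r : P →+ (ι → ZMod p) := red.comp (mulP hpS)
  have hker : ∀ x, r x = 0 → χ x = 0 := by
    intro x hx
    have hd : ∀ i, (p : ℤ) ∣ b.repr (mulP hpS x) i := fun i =>
      (ZMod.intCast_zmod_eq_zero_iff_dvd _ _).mp (congr_fun hx i)
    let t : S := b.repr.symm ((b.repr (mulP hpS x)).mapRange (fun z => z / (p : ℤ)) (by simp))
    have ht : p • t = mulP hpS x := by
      apply b.repr.injective
      rw [map_nsmul, LinearEquiv.apply_symm_apply]
      ext i
      rw [Finsupp.smul_apply, Finsupp.mapRange_apply, nsmul_eq_mul]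
      exact Int.mul_ediv_cancel' (hd i)
    have h0 : (p : ℤ) • ((t : P) - x) = 0 := by
      rw [natCast_zsmul, smul_sub, sub_eq_zero]; exact congr_arg Subtype.val ht
    have hx' : (t : P) = x :=
      sub_eq_zero.mp ((smul_eq_zero.mp h0).resolve_left (Int.natCast_ne_zero.mpr hp.out.ne_zero))
    exact hx' ▸ hχ _ t.2
  let V : Submodule (ZMod p) (ι → ZMod p) :=
    { r.range with
      smul_mem' := fun c v hv => by
        rw [← ZMod.natCast_zmod_val c, Nat.cast_smul_eq_nsmul]
        exact r.range.nsmul_mem hv _ }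
  let χV : V →+ ZMod p :=
    AddMonoidHom.liftOfSurjective r.rangeRestrict r.rangeRestrict_surjective
      ⟨χ, fun x hx => AddMonoidHom.mem_ker.mpr
        (hker x (congr_arg Subtype.val (AddMonoidHom.mem_ker.mp hx)))⟩
  -- Extend the factor to all of `(ℤ / p) ^ ι` and lift it to integers.
  obtain ⟨L, hL⟩ := LinearMap.exists_extend (AddMonoidHom.toZModLinearMap p χV)
  have hχV : ∀ x, χV (r.rangeRestrict x) = χ x := fun x =>
    AddMonoidHom.liftOfRightInverse_comp_apply r.rangeRestrict _ _ ⟨χ, _⟩ x
  have hLx : ∀ x, L (r x) = χ x := fun x =>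
    (LinearMap.congr_fun hL ⟨r x, x, rfl⟩).trans (hχV x)
  refine ⟨(b.constr ℤ fun i => ((L (Pi.single i 1)).val : ℤ)).toAddMonoidHom, fun x => ?_⟩
  rw [← hLx x]
  show ((b.constr ℤ (fun i => ((L (Pi.single i 1)).val : ℤ)) (mulP hpS x) : ℤ) : ZMod p) = _
  rw [Module.Basis.constr_apply_fintype, Int.cast_sum]
  conv_rhs => rw [← Finset.univ_sum_single (r x), map_sum]
  refine Finset.sum_congr rfl fun i _ => ?_
  have e : Pi.single i (r x i) = r x i • (Pi.single i 1 : ι → ZMod p) := by
    rw [← Pi.single_smul, smul_eq_mul, mul_one]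
  rw [e, map_smul, smul_eq_mul, smul_eq_mul, Int.cast_mul, Int.cast_natCast,
    ZMod.natCast_zmod_val]
  rfl

end Lattice

/-! ### Cochains and the pairing on cochains -/

section Pairing

variable {G C P : Type*} [Group G] [Fintype G] [AddCommGroup C] [DistribMulAction G C]
  [AddCommGroup P] [DistribMulAction G P] {S : AddSubgroup P} (hS : IsStable G S)
  {u : NormCocycle G C}

/-- Cochains on `P` whose image in `P / S` is a cocycle. -/
def cocycleMod : AddSubgroup (G → P) where
  carrier := {a | ∀ g h : G, g • a h - a (g * h) + a g ∈ S}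
  add_mem' {a b} ha hb g h := by
    have e := add_mem (ha g h) (hb g h)
    simp only [Pi.add_apply, smul_add]
    convert e using 1; abel
  zero_mem' g h := by simp
  neg_mem' {a} ha g h := by
    have e := neg_mem (ha g h)
    simp only [Pi.neg_apply, smul_neg]
    convert e using 1; abel

/-- Cochains on `P` whose image in `P / S` is a coboundary. -/
def coboundaryMod : AddSubgroup (G → P) where
  carrier := {a | ∃ x : P, ∀ g : G, a g - (g • x - x) ∈ S}
  add_mem' {a b} ha hb := by
    obtain ⟨x, hx⟩ := ha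
    obtain ⟨y, hy⟩ := hb
    refine ⟨x + y, fun g => ?_⟩
    have e := add_mem (hx g) (hy g)
    simp only [Pi.add_apply, smul_add]
    convert e using 1; abel
  zero_mem' := ⟨0, fun g => by simp⟩
  neg_mem' {a} ha := by
    obtain ⟨x, hx⟩ := ha
    refine ⟨-x, fun g => ?_⟩
    have e := neg_mem (hx g)
    simp only [Pi.neg_apply, smul_neg]
    convert e using 1; abel

omit [Fintype G] in
theorem one_mem_of_cocycleMod {a : G → P} (ha : a ∈ cocycleMod (S := S)) : a 1 ∈ S := by
  simpa using ha 1 1

omit [Fintype G] in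
include hS in
theorem coboundaryMod_le : coboundaryMod (G := G) (S := S) ≤ cocycleMod (G := G) (S := S) := by
  rintro a ⟨x, hx⟩ g h
  have e := add_mem (sub_mem (hS g _ (hx h)) (hx (g * h))) (hx g)
  simp only [smul_sub, mul_smul] at e
  convert e using 1; abel

namespace Split

/-- A coordinate of the augmentation component. -/
def coord (g : G) : Split u →+ ℤ :=
  (Pi.evalAddMonoidHom (fun _ : G => ℤ) g).comp ((augFun G).subtype.comp sndHom)

theorem coord_def (g : G) (x : Split u) : coord g x = (sndHom x).1 g := rfl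

@[simp] theorem coord_inl (g : G) (c : C) : coord g (inl (u := u) c) = 0 := rfl

/-- The coordinates of a translate are the translated coordinates. -/
theorem coord_smul (g x : G) (z : Split u) : coord x (g • z) = coord (g⁻¹ * x) z := rfl

/-- The augmentation coordinates sum to zero. -/
theorem sum_coord (z : Split u) : ∑ g, coord g z = 0 := (sndHom z).2

/-- The coordinate at `g` of the lift of `h` is `[g = h] - [g = 1]`. -/
theorem coord_lift [DecidableEq G] (g h : G) :
    coord g (lift (u := u) h) = (if g = h then 1 else 0) - (if g = 1 then 1 else 0) := by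
  rw [coord_def, lift, sndHom_mk, coe_basic]
  congr! 2

/-- An element of the splitting module with vanishing coordinates lies in the coefficients. -/
theorem eq_inl_of_coord (z : Split u) (h : ∀ g, coord g z = 0) : z = inl (fstHom z) :=
  ext rfl (Subtype.ext (funext h))

theorem fstHom_smul_of_coord (g : G) (z : Split u) (h : ∀ x, coord x z = 0) :
    fstHom (g • z) = g • fstHom z := by
  conv_lhs => rw [eq_inl_of_coord z h, smul_inl, fstHom_inl]

end Split

open Split

theorem normOn_inl (φ : S →+ C) :
    normOn hS ((inl (u := u)).comp φ) = inl.comp (normOn hS φ) := by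
  ext1 s
  simp [normOn_apply, map_sum, smul_inl]

variable {p : ℕ} (hpS : ∀ x : P, p • x ∈ S)

/-- The cochain level pairing. -/
def lam : (S →+ Split u) →+ (G → P) →+ ZMod p :=
  AddMonoidHom.mk' (fun φ => AddMonoidHom.mk'
      (fun a => ∑ g, ((coord g (φ (mulP hpS (a g))) : ℤ) : ZMod p))
      (fun a b => by simp [Finset.sum_add_distrib]))
    fun φ ψ => by ext a; simp [Finset.sum_add_distrib]

omit [DistribMulAction G P] in
theorem lam_apply (φ : S →+ Split u) (a : G → P) :
    lam hpS φ a = ∑ g, ((coord g (φ (mulP hpS (a g))) : ℤ) : ZMod p) := rfl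

omit [DistribMulAction G P] in
/-- The cochain level pairing kills constant cochains. -/
theorem lam_const (φ : S →+ Split u) (x : P) : lam hpS φ (fun _ => x) = 0 := by
  rw [lam_apply, ← Int.cast_sum, sum_coord, Int.cast_zero]

omit [DistribMulAction G P] in
theorem lam_mem (φ : S →+ Split u) {a : G → P} (ha : ∀ g, a g ∈ S) : lam hpS φ a = 0 := by
  rw [lam_apply]
  refine Finset.sum_eq_zero fun g _ => ?_
  have e : mulP hpS (a g) = p • (⟨a g, ha g⟩ : S) := rfl
  rw [e, map_nsmul, map_nsmul, nsmul_eq_mul]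
  push_cast
  simp

omit [DistribMulAction G P] in
theorem lam_inl (φ : S →+ C) : lam hpS ((inl (u := u)).comp φ) = 0 := by
  ext a; simp [lam_apply]

theorem lam_conj (g : G) (φ : S →+ Split u) (a : G → P) :
    lam hpS (conjOn hS g φ) a = lam hpS φ (fun k => g⁻¹ • a (g * k)) := by
  rw [lam_apply, lam_apply]
  refine (Fintype.sum_equiv (Equiv.mulLeft g) _ _ fun k => ?_).symm
  show _ = ((coord (g * k) (g • φ (smulS hS g⁻¹ (mulP hpS (a (g * k))))) : ℤ) : ZMod p)
  rw [coord_smul, inv_mul_cancel_left, smulS_mulP]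

theorem lam_conj_of_cocycle (g : G) (φ : S →+ Split u) {a : G → P}
    (ha : a ∈ cocycleMod (S := S)) : lam hpS (conjOn hS g φ) a = lam hpS φ a := by
  rw [lam_conj]
  have e : (fun k => g⁻¹ • a (g * k)) =
      a + (fun _ => g⁻¹ • a g) - fun k => g⁻¹ • (g • a k - a (g * k) + a g) := by
    funext k
    simp only [Pi.add_apply, Pi.sub_apply, smul_add, smul_sub, inv_smul_smul]
    abel
  rw [e, map_sub, map_add, lam_const, lam_mem hpS φ fun k => hS _ _ (ha g k), add_zero, sub_zero]

omit [DistribMulAction G P] in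
theorem lam_lift [DecidableEq G] (h : G) (W : S →+ ℤ) (a : G → P) :
    lam hpS ((zmultiplesHom (Split u) (lift h)).comp W) a =
      (W (mulP hpS (a h)) : ZMod p) - (W (mulP hpS (a 1)) : ZMod p) := by
  simp only [lam_apply, AddMonoidHom.comp_apply, zmultiplesHom_apply, map_zsmul, coord_lift,
    smul_eq_mul, mul_sub, mul_ite, mul_one, mul_zero, Int.cast_sub, Finset.sum_sub_distrib,
    apply_ite (Int.cast : ℤ → ZMod p), Int.cast_zero, Finset.sum_ite_eq', Finset.mem_univ, if_true]

/-- Equivariant homomorphisms. -/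
def equivHom : AddSubgroup (S →+ C) where
  carrier := {f | IsEquivariantOn hS f}
  add_mem' {f g} hf hg h s := by simp [hf h s, hg h s, smul_add]
  zero_mem' h s := by simp
  neg_mem' {f} hf h s := by simp [hf h s, smul_neg]

include hpS in
/-- `p` kills `P / S`. -/
private theorem nsmul_quot_eq_zero (x : P ⧸ S) : p • x = 0 := by
  obtain ⟨x, rfl⟩ := QuotientAddGroup.mk_surjective x
  rw [← QuotientAddGroup.mk_nsmul, QuotientAddGroup.eq_zero_iff]
  exact hpS x

/-! ### The pairing on norm classes and its perfectness -/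

section

variable [hp : Fact p.Prime] [Module.Free ℤ P] [Module.Finite ℤ P]

omit [Module.Free ℤ P] [Module.Finite ℤ P] in
include hS hpS in
/-- A functional on cochains which factors through `P / S` and kills the cocycles factors through
the differential. -/
private theorem exists_eq_sum_differential (ψ : (G → P) →+ ZMod p)
    (hψS : ∀ a : G → P, (∀ g, a g ∈ S) → ψ a = 0) (hψ : ∀ a ∈ cocycleMod (S := S), ψ a = 0) :
    ∃ W : G × G → P →+ ZMod p, (∀ gh, ∀ x ∈ S, W gh x = 0) ∧
      ∀ a, ψ a = ∑ gh : G × G, W gh (gh.1 • a gh.2 - a (gh.1 * gh.2) + a gh.1) := by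
  classical
  -- Work with the `ℤ / p` vector space `P / S` and the differential `d` on its cochains.
  let M := P ⧸ S
  let : Module (ZMod p) M := AddCommGroup.zmodModule (n := p) (nsmul_quot_eq_zero hpS)
  let act : G → M →+ M := fun g =>
    QuotientAddGroup.map S S (DistribSMul.toAddMonoidHom P g) (fun s hs => hS g s hs)
  let d : (G → M) →+ (G × G → M) :=
    AddMonoidHom.mk' (fun b gh => act gh.1 (b gh.2) - b (gh.1 * gh.2) + b gh.1) fun b b' => by
      funext gh; simp only [Pi.add_apply, map_add]; abel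
  let χ : G → M →+ ZMod p := fun g =>
    QuotientAddGroup.lift S (ψ.comp (AddMonoidHom.single (fun _ : G => P) g)) fun s hs =>
      hψS _ fun h => by
        rw [AddMonoidHom.single_apply, Pi.single_apply]
        split_ifs
        exacts [hs, zero_mem S]
  let lQ : (G → M) →+ ZMod p := ∑ g, (χ g).comp (Pi.evalAddMonoidHom (fun _ => M) g)
  have hlQ : ∀ a : G → P, lQ (fun g => (a g : M)) = ψ a := fun a => by
    conv_rhs => rw [← Finset.univ_sum_single a, map_sum]
    rw [AddMonoidHom.finsetSum_apply]
    rfl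
  have hdQ : ∀ (a : G → P) (gh : G × G), d (fun g => (a g : M)) gh =
      ((gh.1 • a gh.2 - a (gh.1 * gh.2) + a gh.1 : P) : M) := fun a gh => rfl
  -- `ψ` kills the kernel of `d`, so it is in the range of the dual map.
  obtain ⟨L, hL⟩ := show AddMonoidHom.toZModLinearMap p lQ ∈
      LinearMap.range (AddMonoidHom.toZModLinearMap p d).dualMap by
    rw [LinearMap.range_dualMap_eq_dualAnnihilator_ker, Submodule.mem_dualAnnihilator]
    intro b hb
    choose a ha using fun g => QuotientAddGroup.mk_surjective (b g)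
    obtain rfl : (fun g => (a g : M)) = b := funext ha
    show lQ (fun g => (a g : M)) = 0
    rw [hlQ]
    refine hψ a fun g h => ?_
    rw [← QuotientAddGroup.eq_zero_iff, ← hdQ a (g, h)]
    exact congr_fun (LinearMap.mem_ker.mp hb) (g, h)
  refine ⟨fun gh => L.toAddMonoidHom.comp ((AddMonoidHom.single (fun _ : G × G => M) gh).comp
    (QuotientAddGroup.mk' S)), fun gh x hx => ?_, fun a => ?_⟩
  · show L (Pi.single gh (x : M)) = 0
    rw [(QuotientAddGroup.eq_zero_iff _).mpr hx, Pi.single_zero, map_zero]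
  · rw [← hlQ]
    have e : lQ (fun g => (a g : M)) = L (d (fun g => (a g : M))) :=
      (LinearMap.congr_fun hL (fun g => (a g : M))).symm
    rw [e, ← Finset.univ_sum_single (d fun g => (a g : M)), map_sum]
    exact Finset.sum_congr rfl fun gh _ => rfl

include hS in
/-- If `lam φ` kills the cocycles, some map with the same norm as `φ` kills all cochains. -/
private theorem exists_lam_eq_zero (φ : S →+ Split u)
    (hφ : ∀ a ∈ cocycleMod (S := S), lam hpS φ a = 0) :
    ∃ φ₁ : S →+ Split u, normOn hS φ₁ = normOn hS φ ∧ ∀ a, lam hpS φ₁ a = 0 := by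
  classical
  obtain ⟨W, hWS, hW⟩ :=
    exists_eq_sum_differential hS hpS (lam hpS φ) (fun a ha => lam_mem hpS φ ha) hφ
  have hlift : ∀ gh : G × G, ∃ V : S →+ ℤ,
      ∀ x, (V (mulP hpS x) : ZMod p) = -(W gh (gh.1 • x)) := fun gh =>
    exists_lift_mulP hpS (-(W gh).comp (DistribSMul.toAddMonoidHom P gh.1)) fun x hx =>
      neg_eq_zero.mpr (hWS gh _ (hS gh.1 x hx))
  choose V hV using hlift
  let η : G × G → (S →+ Split u) := fun gh => (zmultiplesHom (Split u) (lift gh.2)).comp (V gh)
  refine ⟨φ - ∑ gh : G × G, (conjOn hS gh.1 (η gh) - η gh), ?_, fun a => ?_⟩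
  · rw [← normHom_apply, map_sub, map_sum]
    simp only [map_sub, normHom_apply, normOn_conjOn, sub_self, Finset.sum_const_zero, sub_zero]
  · have h0 : ∑ gh : G × G, W gh (gh.1 • a 1) = 0 := by
      have := hW (fun _ => a 1)
      simp only [lam_const, sub_add_cancel] at this
      exact this.symm
    simp only [map_sub, map_sum, AddMonoidHom.sub_apply, AddMonoidHom.finsetSum_apply,
      lam_conj hS hpS, η, lam_lift, hV, smul_inv_smul, mul_one]
    rw [hW a, ← Finset.sum_sub_distrib]
    refine (Finset.sum_congr rfl fun gh _ => ?_).trans h0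
    rw [map_add, map_sub]
    abel

omit [Module.Free ℤ P] [Module.Finite ℤ P] [DistribMulAction G P] in
/-- A map into the splitting module killing all cochains is, up to one extending to `P`, a map
into the coefficients. -/
private theorem exists_eq_inl_add_restrict (φ : S →+ Split u) (hφ : ∀ a, lam hpS φ a = 0) :
    ∃ (φC : S →+ C) (θ : P →+ Split u), φ = inl.comp φC + θ.comp S.subtype := by
  classical
  have hdvd : ∀ g (x : P), (p : ℤ) ∣ coord g (φ (mulP hpS x)) := fun g x => by
    have := hφ (Pi.single g x)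
    rw [lam_apply, Finset.sum_eq_single g (fun h _ hne => by simp [hne]) (by simp),
      Pi.single_eq_same] at this
    exact (ZMod.intCast_zmod_eq_zero_iff_dvd _ _).mp this
  have hp0 : (p : ℤ) ≠ 0 := Int.natCast_ne_zero.mpr hp.out.ne_zero
  let θ : P →+ Split u := AddMonoidHom.mk'
    (fun x => mk 0 ⟨fun g => coord g (φ (mulP hpS x)) / (p : ℤ), by
      refine Int.eq_of_mul_eq_mul_left hp0 ?_ |>.trans rfl
      rw [Finset.mul_sum, mul_zero]
      refine (Finset.sum_congr rfl fun g _ => ?_).trans (sum_coord (φ (mulP hpS x)))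
      exact Int.mul_ediv_cancel' (hdvd g x)⟩) fun x y => by
      refine ext (by simp) (Subtype.ext (funext fun g => ?_))
      show coord g (φ (mulP hpS (x + y))) / (p : ℤ) = _
      rw [map_add, map_add, map_add, Int.add_ediv_of_dvd_left (hdvd g x)]
      rfl
  have hθ : ∀ g (s : S), coord g (φ s - θ (s : P)) = 0 := fun g s => by
    rw [map_sub]
    show coord g (φ s) - coord g (φ (mulP hpS (s : P))) / (p : ℤ) = 0
    rw [mulP_coe, map_nsmul, map_nsmul, nsmul_eq_mul, Int.mul_ediv_cancel_left _ hp0, sub_self]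
  refine ⟨fstHom.comp (φ - θ.comp S.subtype), θ, ?_⟩
  ext1 s
  have e := eq_inl_of_coord (φ s - θ (s : P)) fun g => hθ g s
  simp only [AddMonoidHom.add_apply, AddMonoidHom.comp_apply, AddMonoidHom.sub_apply,
    AddSubgroup.coe_subtype, ← e, sub_add_cancel]

theorem lam_eq_zero_of_normOn (hu : IsClassFormation p u) (hP : IsInduced G P)
    (φ : S →+ Split u) (hφ : normOn hS φ = 0) {a : G → P}
    (ha : a ∈ cocycleMod (S := S)) : lam hpS φ a = 0 := by
  classical
  obtain ⟨H⟩ := (inferInstance : Nonempty (Sylow p G))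
  let : Fintype (G ⧸ (H : Subgroup G)) := Fintype.ofFinite _
  let : Fintype (H : Subgroup G) := Fintype.ofFinite _
  obtain ⟨hNs, hNk⟩ := Split.norm_props hu (H : Subgroup G) H.isPGroup'
  set ψ := ∑ q : G ⧸ (H : Subgroup G), conjOn hS q.out⁻¹ φ
  obtain ⟨η, hη⟩ := exists_eq_sum_conjOn_sub (IsStable.restrict hS (H : Subgroup G))
    H.isPGroup' hNs hNk (hP.subgroup _) hpS ψ
    ((normOn_eq_sum_right hS (H : Subgroup G) φ).symm.trans hφ)
  have h0 : lam hpS ψ a = 0 := by
    rw [hη, map_sum, AddMonoidHom.finsetSum_apply]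
    refine Finset.sum_eq_zero fun h _ => ?_
    rw [map_sub, AddMonoidHom.sub_apply, conjOn_subgroup hS (H : Subgroup G) h,
      lam_conj_of_cocycle hS hpS _ _ ha, sub_self]
  simp only [ψ, map_sum, AddMonoidHom.finsetSum_apply, lam_conj_of_cocycle hS hpS _ _ ha,
    Finset.sum_const, Finset.card_univ, nsmul_eq_mul, ← Nat.card_eq_fintype_card] at h0
  refine (mul_eq_zero.mp h0).resolve_left fun hc => H.not_dvd_index ?_
  exact (ZMod.natCast_eq_zero_iff _ _).mp hc

theorem exists_normOn_eq (hu : IsClassFormation p u) (hP : IsInduced G P) (hpS : ∀ x : P, p • x ∈ S)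
    (f : S →+ C) (hf : IsEquivariantOn hS f) :
    ∃ φ : S →+ Split u, normOn hS φ = inl.comp f := by
  classical
  obtain ⟨H⟩ := (inferInstance : Nonempty (Sylow p G))
  let : Fintype (G ⧸ (H : Subgroup G)) := Fintype.ofFinite _
  let : Fintype (H : Subgroup G) := Fintype.ofFinite _
  obtain ⟨hNs, -⟩ := Split.norm_props hu (H : Subgroup G) H.isPGroup'
  set f' : S →+ Split u := inl.comp f with hf'
  have hf'e : IsEquivariantOn hS f' := fun g s => by
    simp only [f', AddMonoidHom.comp_apply, hf g s, smul_inl]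
  obtain ⟨φ₁, hφ₁⟩ := exists_eq_normOn (IsStable.restrict hS (H : Subgroup G)) H.isPGroup'
    (Split.h1Zero hu _ H.isPGroup') hNs (hP.subgroup _) hpS f' fun h s => hf'e h s
  have h1 : normOn hS φ₁ = Fintype.card (G ⧸ (H : Subgroup G)) • f' := by
    rw [normOn_eq_sum_left hS (H : Subgroup G), hφ₁]
    simp [IsEquivariantOn.conjOn_eq hS hf'e]
  obtain ⟨T, hT⟩ := hP
  have h2 : normOn hS (((f'.comp (mulP hpS)).comp T).comp S.subtype) = p • f' := by
    rw [normOn_comp_of_equivariant hS hT _ fun g x => by
      simp only [AddMonoidHom.comp_apply, ← smulS_mulP hS, hf'e g (mulP hpS x)]]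
    ext1 s
    simp only [AddMonoidHom.comp_apply, AddSubgroup.coe_subtype, mulP_coe, map_nsmul,
      AddMonoidHom.smul_apply]
  have hcop : (Fintype.card (G ⧸ (H : Subgroup G))).Coprime p := by
    rw [← Nat.card_eq_fintype_card]
    exact (hp.out.coprime_iff_not_dvd.mpr H.not_dvd_index).symm
  obtain ⟨a, b, hab⟩ : IsCoprime (Fintype.card (G ⧸ (H : Subgroup G)) : ℤ) (p : ℤ) :=
    Int.isCoprime_iff_nat_coprime.mpr (by simpa using hcop)
  refine ⟨a • φ₁ + b • (((f'.comp (mulP hpS)).comp T).comp S.subtype), ?_⟩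
  rw [← normHom_apply, map_add, map_zsmul, map_zsmul, normHom_apply, normHom_apply, h1, h2,
    ← natCast_zsmul f', ← natCast_zsmul f', smul_smul, smul_smul, ← add_smul]
  rw [hab, one_smul, hf']

variable (hu : IsClassFormation p u) (hP : IsInduced G P)

/-- A chosen preimage under the norm. -/
def normPre (f : equivHom (C := C) hS) : S →+ Split u :=
  (exists_normOn_eq hS hu hP hpS f.1 f.2).choose

theorem normOn_normPre (f : equivHom (C := C) hS) :
    normOn hS (normPre hS hpS hu hP f) = inl.comp f.1 :=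
  (exists_normOn_eq hS hu hP hpS f.1 f.2).choose_spec

/-- The pairing of equivariant homomorphisms with cocycles. -/
def pair : equivHom (C := C) hS →+ cocycleMod (G := G) (S := S) →+ ZMod p :=
  AddMonoidHom.mk' (fun f => (lam hpS (normPre hS hpS hu hP f)).comp cocycleMod.subtype)
    fun f g => by
      ext a
      simp only [AddMonoidHom.comp_apply, AddMonoidHom.add_apply, AddSubgroup.coe_subtype]
      rw [← sub_eq_zero, ← AddMonoidHom.add_apply, ← map_add (lam hpS),
        ← AddMonoidHom.sub_apply, ← map_sub (lam hpS)]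
      refine lam_eq_zero_of_normOn hS hpS hu hP _ ?_ a.2
      rw [← normHom_apply, map_sub, map_add]
      simp only [normHom_apply, normOn_normPre, AddSubgroup.coe_add,
        AddMonoidHom.comp_add, sub_self]

theorem pair_eq (f : equivHom (C := C) hS) (φ : S →+ Split u) (hφ : normOn hS φ = inl.comp f.1)
    (a : cocycleMod (G := G) (S := S)) : pair hS hpS hu hP f a = lam hpS φ a := by
  show lam hpS (normPre hS hpS hu hP f) a = _
  rw [← sub_eq_zero, ← AddMonoidHom.sub_apply, ← map_sub]
  refine lam_eq_zero_of_normOn hS hpS hu hP _ ?_ a.2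
  rw [← normHom_apply, map_sub, normHom_apply, normHom_apply, normOn_normPre, hφ, sub_self]

/-- The pairing kills coboundaries. -/
theorem pair_coboundary (f : equivHom (C := C) hS) (a : cocycleMod (G := G) (S := S))
    (ha : (a : G → P) ∈ coboundaryMod (S := S)) : pair hS hpS hu hP f a = 0 := by
  classical
  show lam hpS (normPre hS hpS hu hP f) a = 0
  set φ := normPre hS hpS hu hP f with hφdef
  obtain ⟨x, hx⟩ := ha
  have e : (a : G → P) = (fun g => (a : G → P) g - (g • x - x)) + (fun g => g • x)
      - fun _ => x := by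
    funext g; simp only [Pi.add_apply, Pi.sub_apply]; abel
  rw [e, map_sub, map_add, lam_mem hpS φ hx, lam_const, zero_add, sub_zero, lam_apply,
    ← Int.cast_sum]
  have h0 := congr_arg (coord 1) (DFunLike.congr_fun (normOn_normPre hS hpS hu hP f) (mulP hpS x))
  rw [← hφdef, AddMonoidHom.comp_apply, coord_inl, normOn_apply, map_sum] at h0
  simp only [coord_smul, mul_one, smulS_mulP] at h0
  rw [← Equiv.sum_comp (Equiv.inv G) (fun g => coord g (φ (mulP hpS (g • x))))]
  simp only [Equiv.inv_apply]
  rw [h0, Int.cast_zero]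

/-- The pairing kills norms. -/
theorem pair_normOn (φ : S →+ C) (a : cocycleMod (G := G) (S := S)) :
    pair hS hpS hu hP ⟨normOn hS φ, isEquivariantOn_normOn hS φ⟩ a = 0 := by
  rw [pair_eq hS hpS hu hP _ (inl.comp φ) (normOn_inl hS φ), lam_inl]
  rfl

theorem exists_normOn_of_pair_eq_zero (f : equivHom (C := C) hS)
    (hf : ∀ a, pair hS hpS hu hP f a = 0) : ∃ φ : S →+ C, normOn hS φ = f.1 := by
  classical
  obtain ⟨φ₁, hφ₁n, hφ₁⟩ := exists_lam_eq_zero hS hpS (normPre hS hpS hu hP f)
    fun a ha => hf ⟨a, ha⟩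
  rw [normOn_normPre] at hφ₁n
  obtain ⟨φC, θ, hφC⟩ := exists_eq_inl_add_restrict hpS φ₁ hφ₁
  -- the correction is restricted from an equivariant map with values in `C`
  let E : P →+ Split u := ∑ g : G, (DistribSMul.toAddMonoidHom (Split u) g).comp
    (θ.comp (DistribSMul.toAddMonoidHom P g⁻¹))
  have hE : ∀ x, E x = ∑ g : G, g • θ (g⁻¹ • x) := fun x => by
    simp only [E, AddMonoidHom.finsetSum_apply]
    rfl
  have hEe : ∀ (h : G) (x : P), E (h • x) = h • E x := fun h x => by
    rw [hE, hE, Finset.smul_sum]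
    refine Fintype.sum_equiv (Equiv.mulLeft h⁻¹) _ _ fun g => ?_
    simp [smul_smul]
  have hES : ∀ s : S, E s = inl (f.1 s - normOn hS φC s) := fun s => by
    have e := DFunLike.congr_fun hφ₁n s
    rw [hφC, normOn_add, normOn_inl, AddMonoidHom.add_apply, AddMonoidHom.comp_apply] at e
    rw [AddMonoidHom.comp_apply] at e
    rw [map_sub, ← e, add_sub_cancel_left, normOn_apply, hE]
    simp
  have hEc : ∀ x y, coord y (E x) = 0 := fun x y => by
    have h0 : p • coord y (E x) = 0 := by
      rw [← map_nsmul, ← map_nsmul, show p • x = ((mulP hpS x : S) : P) from rfl, hES, coord_inl]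
    simpa [hp.out.ne_zero] using h0
  obtain ⟨T, hT⟩ := id hP
  refine ⟨φC + (((fstHom (u := u)).comp E).comp T).comp S.subtype, ?_⟩
  rw [normOn_add, normOn_comp_of_equivariant hS hT ((fstHom (u := u)).comp E) fun g x => by
    simp only [AddMonoidHom.comp_apply, hEe, fstHom_smul_of_coord _ _ (hEc x)]]
  ext1 s
  simp only [AddMonoidHom.add_apply, AddMonoidHom.comp_apply, AddSubgroup.coe_subtype, hES,
    fstHom_inl, add_sub_cancel]

omit hS hu hP in
/-- Every functional on cocycles killing coboundaries is `lam` of some map. -/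
private theorem exists_lam_eq (μ : cocycleMod (G := G) (S := S) →+ ZMod p)
    (hμ : ∀ a : cocycleMod (G := G) (S := S), (a : G → P) ∈ coboundaryMod (S := S) → μ a = 0) :
    ∃ φ : S →+ Split u, ∀ a : cocycleMod (G := G) (S := S), lam hpS φ a = μ a := by
  classical
  let M := P ⧸ S
  let : Module (ZMod p) M := AddCommGroup.zmodModule (n := p) (nsmul_quot_eq_zero hpS)
  -- `μ` factors through the values modulo `S`; extend it to all functions `G → P / S`
  let q : cocycleMod (G := G) (S := S) →+ (G → M) :=
    AddMonoidHom.mk' (fun a g => ((a : G → P) g : M)) fun a b => rfl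
  let Z : Submodule (ZMod p) (G → M) :=
    { q.range with
      smul_mem' := fun c v hv => by
        rw [← ZMod.natCast_zmod_val c, Nat.cast_smul_eq_nsmul]
        exact q.range.nsmul_mem hv _ }
  let μZ : Z →+ ZMod p :=
    AddMonoidHom.liftOfSurjective q.rangeRestrict q.rangeRestrict_surjective
      ⟨μ, fun a ha => AddMonoidHom.mem_ker.mpr (hμ a ⟨0, fun g => by
        have := congr_fun (congr_arg Subtype.val (AddMonoidHom.mem_ker.mp ha)) g
        simpa using (QuotientAddGroup.eq_zero_iff _).mp this⟩)⟩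
  obtain ⟨L, hL⟩ := LinearMap.exists_extend (AddMonoidHom.toZModLinearMap p μZ)
  have hμZ : ∀ a, μZ (q.rangeRestrict a) = μ a := fun a =>
    AddMonoidHom.liftOfRightInverse_comp_apply q.rangeRestrict _ _ ⟨μ, _⟩ a
  have hLa : ∀ a, L (q a) = μ a := fun a =>
    (LinearMap.congr_fun hL ⟨q a, a, rfl⟩).trans (hμZ a)
  -- its coordinates lift to integral functionals on `S`
  have hlift : ∀ g : G, ∃ V : S →+ ℤ,
      ∀ x, (V (mulP hpS x) : ZMod p) = L (Pi.single g (x : M)) := fun g => by
    obtain ⟨V, hV⟩ := exists_lift_mulP hpS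
      (L.toAddMonoidHom.comp
        ((AddMonoidHom.single (fun _ : G => M) g).comp (QuotientAddGroup.mk' S))) fun x hx => by
        show L (Pi.single g ((x : P) : M)) = 0
        rw [(QuotientAddGroup.eq_zero_iff x).mpr hx, Pi.single_zero, map_zero]
    exact ⟨V, hV⟩
  choose V hV using hlift
  refine ⟨∑ g, (zmultiplesHom (Split u) (lift g)).comp (V g), fun a => ?_⟩
  simp only [map_sum, AddMonoidHom.finsetSum_apply, lam_lift, hV, ← hLa]
  rw [← Finset.univ_sum_single (q a), map_sum]
  refine Finset.sum_congr rfl fun g _ => ?_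
  rw [(QuotientAddGroup.eq_zero_iff _).mpr (one_mem_of_cocycleMod a.2), Pi.single_zero, map_zero,
    sub_zero]
  rfl

/-- Every functional on cocycles killing coboundaries is given by the pairing. -/
theorem exists_pair_eq (μ : cocycleMod (G := G) (S := S) →+ ZMod p)
    (hμ : ∀ a : cocycleMod (G := G) (S := S), (a : G → P) ∈ coboundaryMod (S := S) → μ a = 0) :
    ∃ f, pair hS hpS hu hP f = μ := by
  classical
  obtain ⟨φ₀, hlam⟩ := exists_lam_eq (u := u) hpS μ hμ
  -- the diagonal coordinate `D` of the norm is `p E` with `E` of norm zero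
  let D : S →+ ℤ := ∑ g : G, (coord g).comp
    (φ₀.comp (AddMonoidHom.mk' (smulS hS g) (smulS_add hS g)))
  have hD : ∀ s, D s = ∑ g : G, coord g (φ₀ (smulS hS g s)) := fun s => by
    simp only [D, AddMonoidHom.finsetSum_apply]
    rfl
  have hp0 : (p : ℤ) ≠ 0 := Int.natCast_ne_zero.mpr hp.out.ne_zero
  have hdvd : ∀ x : P, (p : ℤ) ∣ D (mulP hpS x) := fun x => by
    rw [← ZMod.intCast_zmod_eq_zero_iff_dvd, hD, Int.cast_sum]
    have hc : (fun g : G => g • x - x) ∈ coboundaryMod (S := S) := ⟨x, fun g => by simp⟩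
    have := hlam ⟨_, coboundaryMod_le hS hc⟩
    rw [hμ _ hc] at this
    have e : (fun g : G => g • x - x) = (fun g => g • x) - fun _ => x := rfl
    replace this : lam hpS φ₀ (fun g : G => g • x - x) = 0 := this
    rw [e, map_sub, lam_const, sub_zero, lam_apply] at this
    simpa only [smulS_mulP] using this
  let E : P →+ ℤ := AddMonoidHom.mk' (fun x => D (mulP hpS x) / (p : ℤ)) fun x y => by
    rw [map_add, map_add, Int.add_ediv_of_dvd_left (hdvd x)]
  have hES : ∀ s : S, E s = D s := fun s => by
    show D (mulP hpS (s : P)) / (p : ℤ) = D s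
    rw [mulP_coe, map_nsmul, nsmul_eq_mul, Int.mul_ediv_cancel_left _ hp0]
  have hEN : ∀ x, ∑ h : G, E (h • x) = 0 := fun x => by
    refine Int.eq_of_mul_eq_mul_left hp0 ?_
    rw [mul_zero, Finset.mul_sum]
    calc ∑ h : G, (p : ℤ) * E (h • x) = ∑ h : G, ∑ g :
        G, coord g (φ₀ (mulP hpS ((g * h) • x))) := by
          refine Finset.sum_congr rfl fun h _ => ?_
          rw [show E (h • x) = D (mulP hpS (h • x)) / (p : ℤ) from rfl,
            Int.mul_ediv_cancel' (hdvd _), hD]
          simp only [smulS_mulP, smul_smul]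
      _ = ∑ g : G, ∑ k : G, coord g (φ₀ (mulP hpS (k • x))) := by
          rw [Finset.sum_comm]
          exact Finset.sum_congr rfl fun g _ =>
            Equiv.sum_comp (Equiv.mulLeft g) (fun k => coord g (φ₀ (mulP hpS (k • x))))
      _ = 0 := by
          rw [Finset.sum_comm]
          exact Finset.sum_eq_zero fun k _ => sum_coord _
  -- subtract from `φ₀` an induced map with diagonal `E`: the norm then lands in `C`
  obtain ⟨T, hT⟩ := id hP
  let θ : P →+ Split u := AddMonoidHom.mk'
    (fun x => mk 0 ⟨fun g => E (g⁻¹ • T x), by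
      show ∑ g : G, E (g⁻¹ • T x) = 0
      rw [← hEN (T x)]
      exact Equiv.sum_comp (Equiv.inv G) (fun g => E (g • T x))⟩) fun x y => by
      refine ext (by simp) (Subtype.ext (funext fun g => ?_))
      show E (g⁻¹ • T (x + y)) = E (g⁻¹ • T x) + E (g⁻¹ • T y)
      rw [map_add, smul_add, map_add]
  let φ := φ₀ - θ.comp S.subtype
  have hθlam : ∀ a : G → P, lam hpS (θ.comp S.subtype) a = 0 := fun a => by
    rw [lam_apply]
    refine Finset.sum_eq_zero fun g _ => ?_
    simp [map_nsmul]
  have hsnd : ∀ (s : S) (y : G), coord y (normOn hS φ s) = 0 := fun s y => by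
    have e : coord y (normOn hS φ s) = ∑ g : G, coord g (φ (smulS hS g (smulS hS y⁻¹ s))) := by
      rw [normOn_apply, map_sum]
      simp only [coord_smul]
      refine Fintype.sum_equiv ((Equiv.inv G).trans (Equiv.mulRight y)) _ _ fun h => ?_
      show _ = coord (h⁻¹ * y) (φ (smulS hS (h⁻¹ * y) (smulS hS y⁻¹ s)))
      rw [smulS_smulS, mul_inv_cancel_right]
    set s' := smulS hS y⁻¹ s
    rw [e]
    have e2 : ∑ g : G, E (g⁻¹ • T (g • (s' : P))) = E (s' : P) := by
      conv_rhs => rw [← hT (s' : P), map_sum]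
      refine Fintype.sum_equiv (Equiv.inv G) _ _ fun g => ?_
      simp
    calc ∑ g : G, coord g (φ (smulS hS g s'))
        = D s' - ∑ g : G, E (g⁻¹ • T (g • (s' : P))) := by
          rw [hD, ← Finset.sum_sub_distrib]
          exact Finset.sum_congr rfl fun g _ => rfl
      _ = 0 := by rw [e2, hES, sub_self]
  refine ⟨⟨fstHom.comp (normOn hS φ), fun g s => ?_⟩, ?_⟩
  · simp only [AddMonoidHom.comp_apply, isEquivariantOn_normOn hS φ g s,
      fstHom_smul_of_coord _ _ (hsnd s)]
  · ext a
    rw [pair_eq hS hpS hu hP _ φ (by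
      ext1 s
      exact eq_inl_of_coord _ (hsnd s))]
    simp only [φ, map_sub, AddMonoidHom.sub_apply, hlam, hθlam, sub_zero]

end

end Pairing

end Fermat.Agent.CFT
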