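import Fermat.Agent.CFT.Coh.Existence

/-!
# Quotients and transport of class formations

A class formation modulo a cohomologically trivial submodule is again a class formation, and class
formations transport along isomorphisms of the group and the module.
-/

set_option autoImplicit false

noncomputable section

namespace Fermat.Agent.CFT

open groupCohomology

variable {G : Type*} [Group G] [Finite G] {p : ℕ} [hp : Fact p.Prime]
  {N : Type*} [AddCommGroup N] [DistribMulAction G N]

/-- A sum over `H` is a step norm of a sum over `K`. -/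
theorem normSum_eq_stepNorm {H K : Subgroup G} [Fintype H] [Fintype K] {g : G}
    (hs : IsStep p H K g) (m : N) : normSum H N m = stepNorm p g (normSum K N m) := by
  classical
  obtain ⟨χ, -, hker, hg⟩ := hs.exists_char
  set γ : H := ⟨g, hs.mem⟩
  let i : H → ℕ := fun h => (Multiplicative.toAdd (χ h)).val
  have hmem : ∀ h : H, (((γ ^ i h)⁻¹ * h : H) : G) ∈ K := fun h => by
    rw [← Subgroup.mem_subgroupOf, ← hker, MonoidHom.mem_ker, map_mul, map_inv, map_pow, hg,
      ← ofAdd_nsmul, nsmul_one, ZMod.natCast_zmod_val, ofAdd_toAdd, inv_mul_cancel]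
  have hi : ∀ (j : ℕ) (k : K), j < p → i (γ ^ j * ⟨k, hs.le k.2⟩) = j := fun j k hj => by
    have hk : χ ⟨k, hs.le k.2⟩ = 1 := by
      rw [← MonoidHom.mem_ker, hker, Subgroup.mem_subgroupOf]; exact k.2
    simp only [i, map_mul, hk, mul_one, map_pow, hg, ← ofAdd_nsmul, nsmul_one, toAdd_ofAdd,
      ZMod.val_natCast, Nat.mod_eq_of_lt hj]
  rw [stepNorm, normSum]
  simp only [normSum, Finset.smul_sum]
  rw [← Finset.sum_product']
  refine Finset.sum_bij' (fun h _ => (i h, (⟨_, hmem h⟩ : K)))
    (fun x _ => γ ^ x.1 * ⟨x.2, hs.le x.2.2⟩)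
    (fun h _ => Finset.mem_product.mpr ⟨Finset.mem_range.mpr (ZMod.val_lt _), Finset.mem_univ _⟩)
    (fun x _ => Finset.mem_univ _) (fun h _ => mul_inv_cancel_left _ h) (fun x hx => ?_)
    fun h _ => ?_
  · have hj := Finset.mem_range.mp (Finset.mem_product.mp hx).1
    have e := hi x.1 x.2 hj
    refine Prod.ext e (Subtype.ext ?_)
    show (((γ ^ i _)⁻¹ * (γ ^ x.1 * ⟨x.2, hs.le x.2.2⟩) : H) : G) = (x.2 : G)
    rw [e, inv_mul_cancel_left]
  · rw [Subgroup.smul_def, Subgroup.smul_def, smul_smul]
    congr 1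
    show (h : G) = ((γ ^ i h * ((γ ^ i h)⁻¹ * h) : H) : G)
    rw [mul_inv_cancel_left]

/-- Vanishing of `H²` on `p`-subgroups from vanishing of `H¹` and surjectivity of the norms on all
subgroups. -/
theorem h2Zero_of_h1Zero_of_normSurj (h1 : ∀ H : Subgroup G, H1Zero H N)
    (hN : ∀ (H : Subgroup G) [Fintype H], NormSurj H N) (H : Subgroup G) (hH : IsPGroup p H) :
    H2Zero H N := by
  suffices key : ∀ (n : ℕ) (H : Subgroup G), Nat.card H = n → IsPGroup p H → H2Zero H N from
    key _ H rfl hH
  intro n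
  induction n using Nat.strong_induction_on with
  | _ n ih =>
  intro H hn hH c hc
  rcases subsingleton_or_nontrivial H with hs | hs
  · refine ⟨fun _ => c (1, 1), fun a b => ?_⟩
    rw [Subsingleton.elim a 1, Subsingleton.elim b 1, one_smul, mul_one, sub_self, zero_add]
  obtain ⟨K, g, hs⟩ := exists_isStep hH
  obtain ⟨χ, hχ, hker, hg⟩ := hs.exists_char
  have hK : H2Zero K N := ih _ (by
    rw [← hn, hs.card_eq]
    exact lt_mul_left Nat.card_pos hp.out.one_lt) K rfl hs.isPGroup_left
  obtain ⟨x, hx, hcx⟩ := exists_carry_congr hs (h1 K) χ hχ hker hg c hc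
    (hK (fun x => c (⟨x.1, hs.le x.1.2⟩, ⟨x.2, hs.le x.2.2⟩)) fun a b d =>
      hc ⟨a.1, hs.le a.2⟩ ⟨b.1, hs.le b.2⟩ ⟨d.1, hs.le d.2⟩)
  let : Fintype H := Fintype.ofFinite _
  let : Fintype K := Fintype.ofFinite _
  obtain ⟨m, rfl⟩ := hN H x fun h => hx h h.2
  have h2 := carry_stepNorm_mem hs χ hker hg (normSum K N m)
    fun k hk => smul_normSum (⟨k, hk⟩ : K) m
  rw [← normSum_eq_stepNorm hs] at h2
  have h3 : c ∈ cobound₂ H N := by
    rw [← sub_add_cancel c (carry χ (normSum H N m))]; exact add_mem hcx h2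
  exact h3

section Push

variable {G : Type*} [Group G] [Fintype G] {C D N : Type*} [AddCommGroup C]
  [DistribMulAction G C] [AddCommGroup D] [DistribMulAction G D] [AddCommGroup N]
  [DistribMulAction G N] {p : ℕ} [hp : Fact p.Prime]

/-- The image of a normalised cocycle. -/
def NormCocycle.push (π : C →+ D) (hπ : ∀ (g : G) (c : C), π (g • c) = g • π c)
    (u : NormCocycle G C) : NormCocycle G D where
  toFun x := π (u.toFun x)
  isCocycle g h j := by
    show π _ + π _ = g • π _ + π _
    rw [← hπ, ← map_add, ← map_add, u.isCocycle g h j]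
  one_left g := by rw [u.one_left, map_zero]

variable (i : N →+ C) (π : C →+ D) (hi : ∀ (g : G) (n : N), i (g • n) = g • i n)
  (hπ : ∀ (g : G) (c : C), π (g • c) = g • π c) (hinj : Function.Injective i)
  (hex : ∀ c, π c = 0 → ∃ n, i n = c) (hπi : ∀ n, π (i n) = 0) (hsurj : Function.Surjective π)
  (hN1 : ∀ H : Subgroup G, H1Zero H N) (hNn : ∀ (H : Subgroup G) [Fintype H], NormSurj H N)

omit [Fintype G] in
include hi hπ hinj hex hπi hsurj hN1 in
/-- Invariants lift along a quotient by a module without `H¹`. -/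
theorem exists_fixed_lift (K : Subgroup G) (a : D) (ha : ∀ k ∈ K, k • a = a) :
    ∃ c : C, π c = a ∧ ∀ k ∈ K, k • c = c := by
  obtain ⟨c, rfl⟩ := hsurj a
  have hk : ∀ k : K, ∃ n : N, i n = (k : G) • c - c := fun k => hex _ (by
    rw [map_sub, hπ, ha _ k.2, sub_self])
  choose n hn using hk
  obtain ⟨z, hz⟩ := hN1 K n fun a b => hinj (by
    rw [map_add, hn, show a • n b = (a : G) • n b from rfl, hi, hn, hn, Subgroup.coe_mul, mul_smul,
      smul_sub]
    abel)
  refine ⟨c - i z, by rw [map_sub, hπi, sub_zero], fun k hk => ?_⟩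
  have e := congrArg i (hz ⟨k, hk⟩)
  rw [map_sub, show (⟨k, hk⟩ : K) • z = k • z from rfl, hi, hn] at e
  rw [smul_sub, ← sub_eq_zero]
  rw [← sub_eq_zero] at e
  rw [← neg_eq_zero, ← e]
  abel

omit [Fintype G] in
/-- The step norm of an element fixed by `K` is fixed by `H`. -/
private theorem smul_stepNorm_of_fixed [Finite G] {H K : Subgroup G} {g : G} (hs : IsStep p H K g)
    {c : C} (hc : ∀ k ∈ K, k • c = c) {h : G} (hh : h ∈ H) :
    h • stepNorm p g c = stepNorm p g c := by
  obtain ⟨χ, -, hker, hg⟩ := hs.exists_char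
  have hgen : ∀ k ∈ K, ∀ j : ℕ, k • g ^ j • c = g ^ j • c := fun k hk j => by
    have h0 : (((⟨g, hs.mem⟩ : H) ^ j)⁻¹ * ⟨k, hs.le hk⟩ * (⟨g, hs.mem⟩ : H) ^ j : H) ∈
        K.subgroupOf H := by
      rw [← hker]
      refine χ.normal_ker.conj_mem' _ ?_ _
      rw [hker]; exact hk
    rw [Subgroup.mem_subgroupOf] at h0
    conv_rhs => rw [← hc _ h0]
    simp only [smul_smul]
    congr 1
    simp [mul_assoc]
  have hg' : g • stepNorm p g c = stepNorm p g c := by
    have e1 := Finset.sum_range_succ' (fun j => g ^ j • c) p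
    rw [Finset.sum_range_succ, hc _ hs.pow_mem, pow_zero, one_smul] at e1
    rw [stepNorm, Finset.smul_sum, Finset.sum_congr rfl fun j _ =>
      by rw [smul_smul, ← pow_succ']]
    exact (add_right_cancel e1).symm
  have hgj : ∀ j : ℕ, g ^ j • stepNorm p g c = stepNorm p g c := fun j => by
    induction j with
    | zero => rw [pow_zero, one_smul]
    | succ j ih => rw [pow_succ, mul_smul, hg', ih]
  set a : H := ⟨h, hh⟩
  obtain ⟨j, hj⟩ : ∃ j : ℕ, ((((⟨g, hs.mem⟩ : H) ^ j)⁻¹ * a : H) : G) ∈ K := by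
    refine ⟨(Multiplicative.toAdd (χ a)).val, ?_⟩
    rw [← Subgroup.mem_subgroupOf, ← hker, MonoidHom.mem_ker, map_mul, map_inv, map_pow, hg,
      ← ofAdd_nsmul, nsmul_one, ZMod.natCast_zmod_val, ofAdd_toAdd, inv_mul_cancel]
  have e2 : h = g ^ j * ((((⟨g, hs.mem⟩ : H) ^ j)⁻¹ * a : H) : G) := by simp [a]
  rw [e2, mul_smul]
  generalize ((((⟨g, hs.mem⟩ : H) ^ j)⁻¹ * a : H) : G) = k₀ at hj ⊢
  rw [show k₀ • stepNorm p g c = stepNorm p g c by
    simp only [stepNorm, Finset.smul_sum, hgen _ hj]]
  exact hgj j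

include hi hπ hinj hex hπi hsurj hN1 hNn in
/-- The quotient of a class formation satisfying the step axioms by a cohomologically trivial
module is a class formation. -/
theorem IsClassFormation.push {u : NormCocycle G C} (hA : StepAxioms p G C)
    (hu : IsClassFormation p u) : IsClassFormation p (u.push π hπ) := by
  refine StepAxioms.isClassFormation ⟨fun H K g hs a ha hN => ?_, fun H K g hs => ?_⟩ _
    fun P k hk => ?_
  -- `H¹` on a step: lift, correct the norm by an element of `N`, descend
  · obtain ⟨c, rfl, hc⟩ := exists_fixed_lift i π hi hπ hinj hex hπi hsurj hN1 K a ha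
    have hsn : ∀ x : C, π (stepNorm p g x) = stepNorm p g (π x) := fun x => by
      simp only [stepNorm, map_sum, hπ]
    obtain ⟨n, hn⟩ := hex (stepNorm p g c) (by rw [hsn, hN])
    let : Fintype H := Fintype.ofFinite _
    let : Fintype K := Fintype.ofFinite _
    have hnfix : ∀ h : H, h • n = n := fun h => hinj (by
      show i ((h : G) • n) = i n
      rw [hi, hn, smul_stepNorm_of_fixed hs hc h.2])
    obtain ⟨m, hm⟩ := hNn H n hnfix
    rw [normSum_eq_stepNorm hs] at hm
    have hm0 : ∀ k ∈ K, k • (c - i (normSum K N m)) = c - i (normSum K N m) := fun k hk => by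
      rw [smul_sub, hc k hk, ← hi,
        show k • normSum K N m = normSum K N m from smul_normSum (⟨k, hk⟩ : K) m]
    obtain ⟨b, hb, hgb⟩ := hA.h1 H K g hs _ hm0 (by
      have e : stepNorm p g (i (normSum K N m)) = i (stepNorm p g (normSum K N m)) := by
        simp only [stepNorm, map_sum, hi]
      have e' : stepNorm p g (c - i (normSum K N m)) =
          stepNorm p g c - stepNorm p g (i (normSum K N m)) := by
        simp only [stepNorm, smul_sub, Finset.sum_sub_distrib]
      rw [e', e, hm, hn, sub_self])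
    exact ⟨π b, fun k hk => by rw [← hπ, hb k hk],
      by rw [← hπ, ← map_sub, hgb, map_sub, hπi, sub_zero]⟩
  -- the cokernel of a step norm is generated by the image of a generator
  · obtain ⟨x₀, hx₀, hx⟩ := hA.index_le H K g hs
    refine ⟨π x₀, fun h hh => by rw [← hπ, hx₀ h hh], fun x hxH => ?_⟩
    obtain ⟨c, rfl, hc⟩ := exists_fixed_lift i π hi hπ hinj hex hπi hsurj hN1 H x hxH
    obtain ⟨m, b, hb, e⟩ := hx c hc
    refine ⟨m, π b, fun k hk => by rw [← hπ, hb k hk], ?_⟩
    rw [e, map_add, map_zsmul]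
    simp only [stepNorm, map_sum, hπ]
  -- the order is kept, as `H²` of `N` vanishes
  · obtain ⟨y, hy⟩ := hk
    choose y' hy' using fun x => hsurj (y x)
    have hn : ∀ gh : ↥(P : Subgroup G) × ↥(P : Subgroup G), ∃ n : N,
        i n = k • u.toFun ((gh.1 : G), (gh.2 : G)) -
          ((gh.1 : G) • y' gh.2 - y' (gh.1 * gh.2) + y' gh.1) := fun gh => hex _ (by
      rw [map_sub, map_zsmul, map_add, map_sub, hπ, hy', hy', hy']
      exact sub_eq_zero.mpr (hy gh.1 gh.2).symm)
    choose n hn using hn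
    have hcoc : IsCocycle₂ n := fun a b d => hinj (by
      rw [map_add, map_add, show a • n (b, d) = (a : G) • n (b, d) from rfl, hi, hn, hn, hn, hn]
      have e := isCocycle₂_sub (isCocycle₂_zsmul (G := (P : Subgroup G)) (A := C)
        (c := fun gh => u.toFun ((gh.1 : G), (gh.2 : G)))
        (fun a b d => u.isCocycle (a : G) b d) k) (isCocycle₂_dOne y') a b d
      exact e)
    obtain ⟨z, hz⟩ := h2Zero_of_h1Zero_of_normSurj hN1 hNn _ P.isPGroup' n hcoc
    refine hu.order _ P.isPGroup' k ⟨fun a => y' a + i (z a), fun a b => ?_⟩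
    have e := congrArg i (hz a b)
    rw [map_add, map_sub, show a • z b = (a : G) • z b from rfl, hi, hn] at e
    show (a : G) • (y' b + i (z b)) - (y' (a * b) + i (z (a * b))) + (y' a + i (z a)) =
      k • u.toFun ((a : G), (b : G))
    rw [smul_add, ← sub_eq_zero]
    rw [← sub_eq_zero] at e
    rw [← e]
    abel

end Push

section Transport

variable {G₁ G₂ A B : Type*} [Group G₁] [Fintype G₁] [Group G₂] [Fintype G₂] [AddCommGroup A]
  [DistribMulAction G₁ A] [AddCommGroup B] [DistribMulAction G₂ B] {p : ℕ}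

omit [Fintype G₁] [Fintype G₂] in
/-- A class formation along isomorphisms of the group and the module. -/
theorem IsClassFormation.exists_transport (e : G₁ ≃* G₂) (φ : A ≃+ B)
    (hφ : ∀ (g : G₁) (a : A), φ (g • a) = e g • φ a) {u : NormCocycle G₁ A}
    (hu : IsClassFormation p u) : ∃ u' : NormCocycle G₂ B, IsClassFormation p u' := by
  have hψ : ∀ (g : G₂) (b : B), φ.symm (g • b) = e.symm g • φ.symm b := fun g b => φ.injective (by
    rw [φ.apply_symm_apply, hφ, e.apply_symm_apply, φ.apply_symm_apply])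
  -- Subgroups and cochains are carried along `e` and `φ`.
  let dn : ∀ (H : Subgroup G₂) (_h : H.comap e.toMonoidHom), H := fun _ h => ⟨e h.1, h.2⟩
  let up : ∀ (H : Subgroup G₂) (_h : H), H.comap e.toMonoidHom := fun H h =>
    ⟨e.symm h.1, show e (e.symm h.1) ∈ H by rw [e.apply_symm_apply]; exact h.2⟩
  have dn_mul : ∀ H a b, dn H (a * b) = dn H a * dn H b := fun H a b => Subtype.ext (map_mul e _ _)
  have up_mul : ∀ H a b, up H (a * b) = up H a * up H b :=
    fun H a b => Subtype.ext (map_mul e.symm _ _)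
  have dn_up : ∀ H h, dn H (up H h) = h := fun H h => Subtype.ext (e.apply_symm_apply _)
  have hP : ∀ H : Subgroup G₂, IsPGroup p H → IsPGroup p (H.comap e.toMonoidHom) :=
    fun H hH => hH.comap_of_injective _ e.injective
  refine ⟨⟨fun x => φ (u.toFun (e.symm x.1, e.symm x.2)), fun a b d => ?_, fun a => ?_⟩,
    fun H hH c hc => ?_, fun H hH c hc => ?_, fun H hH k hk => ?_⟩
  · show φ _ + φ _ = a • φ _ + φ _
    rw [← e.apply_symm_apply a, ← hφ, ← map_add, ← map_add]
    simp only [map_mul, e.symm_apply_apply]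
    rw [u.isCocycle]
  · show φ _ = 0
    rw [map_one, u.one_left, map_zero]
  -- Vanishing of `H¹`.
  · obtain ⟨x, hx⟩ := hu.h1 _ (hP H hH) (fun h => φ.symm (c (dn H h))) fun a b => by
      show φ.symm (c (dn H (a * b))) = a • φ.symm (c (dn H b)) + φ.symm (c (dn H a))
      rw [dn_mul, hc, map_add, show dn H a • c (dn H b) = e a.1 • c (dn H b) from rfl, hψ,
        e.symm_apply_apply]
      rfl
    refine ⟨φ x, fun h => ?_⟩
    have e1 := congrArg φ (hx (up H h))
    rw [map_sub, show up H h • x = e.symm h.1 • x from rfl, hφ, e.apply_symm_apply,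
      φ.apply_symm_apply, dn_up] at e1
    exact e1
  -- The fundamental class generates.
  · obtain ⟨k, x, hx⟩ := hu.generates _ (hP H hH) (fun gh => φ.symm (c (dn H gh.1, dn H gh.2)))
      fun a b d => by
        show φ.symm (c (dn H (a * b), dn H d)) + φ.symm (c (dn H a, dn H b)) =
          a • φ.symm (c (dn H b, dn H d)) + φ.symm (c (dn H a, dn H (b * d)))
        rw [dn_mul, dn_mul, show a • φ.symm (c (dn H b, dn H d)) = a.1 • φ.symm (c (dn H b, dn H d))
          from rfl, ← e.symm_apply_apply a.1, ← hψ, ← map_add, ← map_add]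
        exact congrArg φ.symm (hc _ _ _)
    refine ⟨k, fun h => φ (x (up H h)), fun a b => ?_⟩
    have e1 := congrArg φ (hx (up H a) (up H b))
    rw [map_add, map_sub, map_sub, map_zsmul, φ.apply_symm_apply, dn_up, dn_up,
      show up H a • x (up H b) = e.symm a.1 • x (up H b) from rfl, hφ, e.apply_symm_apply,
      ← up_mul] at e1
    exact e1
  · obtain ⟨x, hx⟩ := hk
    -- Its order is the order of the subgroup.
    have h1 := hu.order _ (hP H hH) k ⟨fun h => φ.symm (x (dn H h)), fun a b => ?_⟩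
    · exact (Nat.card_congr (e.toEquiv.subtypeEquiv fun t => Iff.rfl :
        H.comap e.toMonoidHom ≃ H)) ▸ h1
    have e1 := congrArg φ.symm (hx (dn H a) (dn H b))
    rw [map_add, map_sub, map_zsmul, φ.symm_apply_apply,
      show dn H a • x (dn H b) = e a.1 • x (dn H b) from rfl, hψ, e.symm_apply_apply,
      ← dn_mul] at e1
    simp only [dn, e.symm_apply_apply] at e1 ⊢
    exact e1

end Transport

end Fermat.Agent.CFT
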